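/-
DS-Q (lead), file 1: **the black-box Props of the rationality package**.

* `DsqConj M k` : the space of weight-`k` cusp forms on `Γ₁(M)` is stable, on `q`-expansions, under
  every ring endomorphism of `ℂ`;
* `DsqSpan M` : finitely many `q`-coefficients of a weight-`2` cusp form on `Γ₁(M)` determine all the
  others by fixed integral linear combinations (the Hecke algebra is a finitely generated `ℤ`-module);
* `DsqUnitForm M` : a weight-`1` modular form on `Γ₁(M)` with integral `q`-expansion and constant
  term `1`.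
-/
import Mathlib
import Fermat.Prelude.Def_FLTPrelim_Modularity

set_option autoImplicit false

open CongruenceSubgroup ModularFormClass

namespace Fermat.Agent.DS

/-- stability of `S_k(Γ₁(M))` under the ring endomorphisms of `ℂ` acting on `q`-expansions -/
def DsqConj (M : ℕ) [NeZero M] (k : ℤ) : Prop :=
  ∀ (g : CuspForm (Gamma1 M) k) (σ : ℂ →+* ℂ),
    ∃ g' : CuspForm (Gamma1 M) k, ∀ n : ℕ, qCoeff g' n = σ (qCoeff g n)

/-- all `q`-coefficients of the weight-`2` cusp forms on `Γ₁(M)` are fixed integral linear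
combinations of finitely many of them -/
def DsqSpan (M : ℕ) [NeZero M] : Prop :=
  ∃ (I : Finset ℕ) (c : ℕ → ℕ → ℤ), ∀ (g : CuspForm (Gamma1 M) 2) (n : ℕ),
    qCoeff g n = ∑ i ∈ I, (c n i : ℂ) * qCoeff g i

/-- a weight-`1` modular form on `Γ₁(M)` with integral `q`-expansion and constant term `1` -/
def DsqUnitForm (M : ℕ) [NeZero M] : Prop :=
  ∃ φ : ModularForm (Gamma1 M) 1, qCoeff φ 0 = 1 ∧ ∀ n : ℕ, ∃ z : ℤ, qCoeff φ n = (z : ℂ)

end Fermat.Agent.DS
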