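/-
DS-Q (lead), file 6: **products**.  The product of a cusp form and a modular form on `Γ₁(N)` as a
cusp form, with the Cauchy product formula for the `q`-coefficients; level raising for modular
forms; `DsqUnitForm` is inherited by multiples of the level.
-/
import Mathlib
import Fermat.Agent.Lib.DS.Rat.Defs
import Fermat.Agent.Lib.DS.Rankin.Parseval
import Fermat.Agent.Lib.DS.Hecke.Level

set_option autoImplicit false
set_option linter.style.haveILetI false

open CongruenceSubgroup ModularFormClass UpperHalfPlane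
open scoped MatrixGroups

namespace Fermat.Agent.DS

section mul

variable {N : ℕ} [NeZero N]

/-- the product of a cusp form and a modular form on `Γ₁(N)` -/
noncomputable def dsqMul {k₁ k₂ : ℤ} (f : CuspForm (Gamma1 N) k₁) (φ : ModularForm (Gamma1 N) k₂) :
    CuspForm (Gamma1 N) (k₁ + k₂) :=
  f.mulModularForm φ

theorem coe_dsqMul {k₁ k₂ : ℤ} (f : CuspForm (Gamma1 N) k₁) (φ : ModularForm (Gamma1 N) k₂) :
    (⇑(dsqMul f φ) : ℍ → ℂ) = ⇑f * ⇑φ := rfl

/-- Cauchy product formula -/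
theorem qCoeff_dsqMul {k₁ k₂ : ℤ} (f : CuspForm (Gamma1 N) k₁) (φ : ModularForm (Gamma1 N) k₂)
    (n : ℕ) :
    qCoeff (⇑(dsqMul f φ)) n = ∑ ij ∈ Finset.HasAntidiagonal.antidiagonal n, qCoeff f ij.1 * qCoeff φ ij.2 := by
  rw [coe_dsqMul, qCoeff, ModularForm.qExpansion_mul_coe one_pos
    (dsr_one_mem_strictPeriods_Gamma1 N) f φ, PowerSeries.coeff_mul]
  rfl

/-- the product of two weight-one forms, as a form of weight two -/
noncomputable def dsqMul₂ (f : CuspForm (Gamma1 N) 1) (φ : ModularForm (Gamma1 N) 1) :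
    CuspForm (Gamma1 N) 2 :=
  dsqMul f φ

theorem qCoeff_dsqMul₂ (f : CuspForm (Gamma1 N) 1) (φ : ModularForm (Gamma1 N) 1) (n : ℕ) :
    qCoeff (⇑(dsqMul₂ f φ)) n = ∑ ij ∈ Finset.HasAntidiagonal.antidiagonal n, qCoeff f ij.1 * qCoeff φ ij.2 :=
  qCoeff_dsqMul f φ n

end mul

section level

open OnePoint ModularForm Matrix.SpecialLinearGroup

/-- level raising for modular forms: `M_k(Γ₁(N)) ⊆ M_k(Γ₁(M))` for `N ∣ M` -/
noncomputable def dsqModLevelIncl (k : ℤ) {N M : ℕ} [NeZero N] [NeZero M] (hNM : N ∣ M)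
    (φ : ModularForm (Gamma1 N) k) : ModularForm (Gamma1 M) k where
  toFun := ⇑φ
  slash_action_eq' := by
    rintro _ ⟨γ, hγ, rfl⟩
    exact (dshInv_of_slashInvariantFormClass φ).of_dvd hNM γ hγ
  holo' := ModularFormClass.holo φ
  bdd_at_cusps' := fun {c} hc => ModularFormClass.bdd_at_cusps φ
    ((Subgroup.IsArithmetic.isCusp_iff_isCusp_SL2Z _).mpr
      ((Subgroup.IsArithmetic.isCusp_iff_isCusp_SL2Z _).mp hc))

theorem coe_dsqModLevelIncl (k : ℤ) {N M : ℕ} [NeZero N] [NeZero M] (hNM : N ∣ M)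
    (φ : ModularForm (Gamma1 N) k) : (⇑(dsqModLevelIncl k hNM φ) : ℍ → ℂ) = ⇑φ := rfl

/-- `DsqUnitForm` is inherited by the multiples of the level -/
theorem DsqUnitForm.of_dvd {N M : ℕ} [NeZero N] [NeZero M] (hNM : N ∣ M) (h : DsqUnitForm N) :
    DsqUnitForm M := by
  obtain ⟨φ, h0, hφ⟩ := h
  exact ⟨dsqModLevelIncl 1 hNM φ, h0, hφ⟩

end level

end Fermat.Agent.DS
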