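/-
DS-Q1 (helper4), file 1: **holomorphic division**.  If `A² = C B²` for holomorphic functions on an
open set (resp. on the upper half plane) and the zeros of `B` are isolated, then `A / B` extends to a
holomorphic function `H` with `H B = A` and `H² = C` (the meromorphic order of `A / B` is `≥ 0`
everywhere because twice it is the order of `C`).
-/
import Mathlib

set_option autoImplicit false

open Filter Topology UpperHalfPlane
open scoped Manifold

namespace Fermat.Agent.DS


/-- an element of `WithTop ℤ` with nonnegative double is nonnegative -/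
lemma dsq_nonneg_of_add_self_nonneg {a : WithTop ℤ} (h : 0 ≤ a + a) : 0 ≤ a := by
  induction a with
  | top => exact le_top
  | coe n =>
    rw [← WithTop.coe_add, ← WithTop.coe_zero, WithTop.coe_le_coe] at h
    rw [← WithTop.coe_zero, WithTop.coe_le_coe]
    omega

/-- **holomorphic division**: if `A² = C B²` for analytic functions on an open set `U`, and `B` has
isolated zeros, then `A / B` extends to an analytic function `H` on `U` with `H B = A`, `H² = C`. -/
theorem dsq_exists_analytic_div {U : Set ℂ} (hU : IsOpen U) {A B C : ℂ → ℂ}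
    (hA : AnalyticOnNhd ℂ A U) (hB : AnalyticOnNhd ℂ B U) (hC : AnalyticOnNhd ℂ C U)
    (hB0 : ∀ x ∈ U, ∀ᶠ z in 𝓝[≠] x, B z ≠ 0)
    (hrel : ∀ z ∈ U, A z ^ 2 = C z * B z ^ 2) :
    ∃ H : ℂ → ℂ, AnalyticOnNhd ℂ H U ∧ (∀ z ∈ U, H z * B z = A z) ∧ ∀ z ∈ U, H z ^ 2 = C z := by
  set f : ℂ → ℂ := A * B⁻¹ with hf
  have hfU : MeromorphicOn f U := fun x hx =>
    (hA x hx).meromorphicAt.mul (hB x hx).meromorphicAt.inv
  have hUnhds : ∀ x ∈ U, ∀ᶠ z in 𝓝[≠] x, z ∈ U := fun x hx =>
    eventually_nhdsWithin_of_eventually_nhds (hU.mem_nhds hx)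
  -- `f B = A` and `f² = C` on punctured neighbourhoods
  have hfB : ∀ x ∈ U, ∀ᶠ z in 𝓝[≠] x, f z * B z = A z := by
    intro x hx
    filter_upwards [hB0 x hx] with z hz
    simp only [hf, Pi.mul_apply, Pi.inv_apply]
    rw [mul_assoc, inv_mul_cancel₀ hz, mul_one]
  have hfC : ∀ x ∈ U, (f * f) =ᶠ[𝓝[≠] x] C := by
    intro x hx
    filter_upwards [hB0 x hx, hUnhds x hx] with z hz hzU
    simp only [hf, Pi.mul_apply, Pi.inv_apply]
    have h1 := hrel z hzU
    field_simp
    linear_combination h1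
  have hord : ∀ x ∈ U, 0 ≤ meromorphicOrderAt f x := by
    intro x hx
    apply dsq_nonneg_of_add_self_nonneg
    rw [← meromorphicOrderAt_mul (hfU x hx) (hfU x hx), meromorphicOrderAt_congr (hfC x hx)]
    exact (hC x hx).meromorphicOrderAt_nonneg
  set H := toMeromorphicNFOn f U with hH
  have hHf : ∀ x ∈ U, H =ᶠ[𝓝[≠] x] f := fun x hx => hfU.toMeromorphicNFOn_eq_self_on_nhdsNE hx
  have hHan : AnalyticOnNhd ℂ H U := by
    intro x hx
    have h1 : MeromorphicNFAt H x := meromorphicNFOn_toMeromorphicNFOn f U hx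
    rw [← h1.meromorphicOrderAt_nonneg_iff_analyticAt, meromorphicOrderAt_congr (hHf x hx)]
    exact hord x hx
  refine ⟨H, hHan, fun z hz => ?_, fun z hz => ?_⟩
  · have h1 : (fun w => H w * B w) =ᶠ[𝓝[≠] z] A := by
      filter_upwards [hHf z hz, hfB z hz] with w hw1 hw2
      rw [hw1, hw2]
    have h2 : ContinuousAt (fun w => H w * B w) z :=
      ((hHan z hz).continuousAt).mul ((hB z hz).continuousAt)
    exact ((h2.eventuallyEq_nhds_iff_eventuallyEq_nhdsNE (hA z hz).continuousAt).1 h1).eq_of_nhds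
  · have h1 : (fun w => H w ^ 2) =ᶠ[𝓝[≠] z] C := by
      filter_upwards [hHf z hz, hfC z hz] with w hw1 hw2
      rw [hw1, pow_two]
      exact hw2
    have h2 : ContinuousAt (fun w => H w ^ 2) z := ((hHan z hz).continuousAt).pow 2
    exact ((h2.eventuallyEq_nhds_iff_eventuallyEq_nhdsNE (hC z hz).continuousAt).1 h1).eq_of_nhds


/-- **holomorphic division on the upper half plane**: if `A² = C B²` for holomorphic functions on
`ℍ` and `B ≠ 0`, then there is a holomorphic `H` with `H B = A` and `H² = C`. -/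
theorem dsq_exists_mdiff_div {A B C : ℍ → ℂ} (hA : MDiff A) (hB : MDiff B) (hC : MDiff C)
    (hB0 : B ≠ 0) (hrel : A * A = C * (B * B)) :
    ∃ H : ℍ → ℂ, MDiff H ∧ H * B = A ∧ H * H = C := by
  have hAa := (UpperHalfPlane.mdifferentiable_iff.mp hA).analyticOnNhd isOpen_upperHalfPlaneSet
  have hBa := (UpperHalfPlane.mdifferentiable_iff.mp hB).analyticOnNhd isOpen_upperHalfPlaneSet
  have hCa := (UpperHalfPlane.mdifferentiable_iff.mp hC).analyticOnNhd isOpen_upperHalfPlaneSet
  have hconn : IsPreconnected {z : ℂ | 0 < z.im} :=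
    (Complex.isConnected_of_upperHalfPlane subset_rfl (by grind)).isPreconnected
  have hB0' : ∀ x ∈ {z : ℂ | 0 < z.im}, ∀ᶠ z in 𝓝[≠] x, (B ∘ ofComplex) z ≠ 0 := by
    intro x hx
    rcases (hBa x hx).eventually_eq_zero_or_eventually_ne_zero with h | h
    · exfalso
      apply hB0
      have h1 := hBa.eqOn_zero_of_preconnected_of_eventuallyEq_zero hconn hx h
      funext τ
      have h2 := h1 τ.im_pos
      simpa [ofComplex_apply] using h2
    · exact h
  have hrel' : ∀ z ∈ {z : ℂ | 0 < z.im},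
      (A ∘ ofComplex) z ^ 2 = (C ∘ ofComplex) z * (B ∘ ofComplex) z ^ 2 := by
    intro z _
    have := congrFun hrel (ofComplex z)
    simp only [Pi.mul_apply] at this
    simp only [Function.comp_apply, pow_two]
    exact this
  obtain ⟨Hc, hHc, h1, h2⟩ := dsq_exists_analytic_div isOpen_upperHalfPlaneSet hAa hBa hCa hB0' hrel'
  refine ⟨fun τ : ℍ => Hc τ, ?_, ?_, ?_⟩
  · rw [UpperHalfPlane.mdifferentiable_iff]
    refine hHc.differentiableOn.congr fun z hz => ?_
    simp only [Function.comp_apply]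
    rw [ofComplex_apply_of_im_pos hz]
  · funext τ
    have := h1 τ τ.im_pos
    simpa [ofComplex_apply] using this
  · funext τ
    have := h2 τ τ.im_pos
    simpa [ofComplex_apply, pow_two] using this

end Fermat.Agent.DS
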