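/-
DS-Q1 (helper4), file 2: **conjugates of weight-one cusp forms** (the square trick).

`dsq_conj_one : DsqUnitForm M → DsqConj M 2 → DsqConj M 1`.  For `h ∈ S₁(Γ₁(M))`, `σ : ℂ →+* ℂ` and a
weight-one form `φ` with integral `q`-expansion and constant term `1`: `G' := (h φ)^σ` and
`G := (h²)^σ` are weight-two cusp forms with `G'² = G φ²` (compare `q`-expansions), so `H := G'/φ`
is holomorphic on `ℍ` with `H² = G` (`dsq_exists_mdiff_div`), `Γ₁(M)`-invariant of weight one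
(`(H∣γ - H) φ = 0`), cuspidal (`|H∣γ|² = |G∣γ|`), and `qexp(H) qexp(φ) = σ(qexp h) qexp(φ)`.
-/
import Fermat.Agent.Lib.DS.Rat.Defs
import Fermat.Agent.Lib.DS.Rat.Divide
import Fermat.Agent.Lib.DS.Hecke.FinDim
import Fermat.Agent.Lib.DS.Hecke.Forms

set_option autoImplicit false
set_option linter.unusedSectionVars false

open Filter Topology UpperHalfPlane OnePoint CongruenceSubgroup ModularForm ModularFormClass
  Matrix.SpecialLinearGroup
open scoped Manifold MatrixGroups ModularForm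

namespace Fermat.Agent.DS


/-- the product of a function vanishing at all cusps and a holomorphic function bounded at all
cusps vanishes at all cusps -/
theorem dsq_dshCusp_mul {k₁ k₂ : ℤ} {f g : ℍ → ℂ} (hf : DshCusp k₁ f) (hg : MDiff g)
    (hgb : ∀ γ : SL(2, ℤ), IsBoundedAtImInfty (g ∣[k₂] γ)) : DshCusp (k₁ + k₂) (f * g) := by
  refine ⟨hf.1.mul hg, fun c hc => ?_⟩
  rw [isZeroAt_iff_exists_SL2Z hc]
  obtain ⟨γ, hγ⟩ := isCusp_SL2Z_iff'.mp hc
  refine ⟨γ, hγ.symm, ?_⟩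
  rw [mul_slash_SL2]
  exact (hf.slash_SL γ).isZeroAtImInfty.mul_boundedAtFilter (hgb γ)

/-- a holomorphic function whose square vanishes at all cusps vanishes at all cusps -/
theorem dsq_dshCusp_of_sq {k : ℤ} {H G : ℍ → ℂ} (hH : MDiff H) (hG : DshCusp (k + k) G)
    (hsq : H * H = G) : DshCusp k H := by
  refine ⟨hH, fun c hc => ?_⟩
  rw [isZeroAt_iff_exists_SL2Z hc]
  obtain ⟨γ, hγ⟩ := isCusp_SL2Z_iff'.mp hc
  refine ⟨γ, hγ.symm, ?_⟩
  have h1 : (H ∣[k] γ) * (H ∣[k] γ) = G ∣[k + k] γ := by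
    rw [← mul_slash_SL2, hsq]
  have h2 : IsZeroAtImInfty (G ∣[k + k] γ) := (hG.slash_SL γ).isZeroAtImInfty
  rw [← h1] at h2
  rw [IsZeroAtImInfty, ZeroAtFilter, tendsto_zero_iff_norm_tendsto_zero] at h2 ⊢
  have h3 : Tendsto (fun τ => Real.sqrt ‖((H ∣[k] γ) * (H ∣[k] γ)) τ‖) atImInfty (𝓝 0) := by
    have := (Real.continuous_sqrt.tendsto 0).comp h2
    rw [Real.sqrt_zero] at this
    exact this
  refine h3.congr fun τ => ?_
  rw [Pi.mul_apply, norm_mul, Real.sqrt_mul_self (norm_nonneg _)]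

theorem DshNice.mul {h h' : ℍ → ℂ} (hh : DshNice h) (hh' : DshNice h') : DshNice (h * h') where
  per := hh.per.mul hh'.per
  hol := hh.hol.mul hh'.hol
  bdd := hh.bdd.mul hh'.bdd

theorem DshNice.qExpansion_mul {h h' : ℍ → ℂ} (hh : DshNice h) (hh' : DshNice h') :
    qExpansion 1 (h * h') = qExpansion 1 h * qExpansion 1 h' :=
  UpperHalfPlane.qExpansion_mul hh.analyticAt hh'.analyticAt

theorem DshNice.ext_qExpansion {h h' : ℍ → ℂ} (hh : DshNice h) (hh' : DshNice h')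
    (H : qExpansion 1 h = qExpansion 1 h') : h = h' :=
  hh.ext_qCoeff hh' fun n => by rw [qCoeff, qCoeff, H]

variable {M : ℕ} [NeZero M] {k : ℤ}

theorem dsq_inv_of_modularForm (φ : ModularForm (Gamma1 M) k) : DshInv k M ⇑φ :=
  dshInv_of_slashInvariantFormClass φ

theorem dsq_nice_of_modularForm (φ : ModularForm (Gamma1 M) k) : DshNice ⇑φ where
  per := (dsq_inv_of_modularForm φ).periodic
  hol := ModularFormClass.holo φ
  bdd := ModularFormClass.bdd_at_infty φ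

/-- a ring endomorphism of `ℂ` fixes a power series with integral coefficients -/
theorem dsq_map_eq_self_of_int (σ : ℂ →+* ℂ) (P : PowerSeries ℂ)
    (hP : ∀ n : ℕ, ∃ z : ℤ, PowerSeries.coeff n P = (z : ℂ)) : PowerSeries.map σ P = P := by
  ext n
  obtain ⟨z, hz⟩ := hP n
  rw [PowerSeries.coeff_map, hz, map_intCast]

/-- **DS-Q1**: conjugates of weight-one cusp forms are cusp forms, given the same in weight two and
a weight-one form with integral `q`-expansion and constant term `1` (the square trick) -/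
theorem dsq_conj_one (M : ℕ) [NeZero M] (hφ : DsqUnitForm M) (h2 : DsqConj M 2) : DsqConj M 1 := by
  intro h σ
  obtain ⟨φ, hφ0, hφint⟩ := hφ
  have hnh : DshNice ⇑h := dshNice_of_cuspForm h
  have hnφ : DshNice ⇑φ := dsq_nice_of_modularForm φ
  have e11 : ((1 : ℤ) + 1) = 2 := by norm_num
  -- the two auxiliary weight-two forms
  have hc1 : DshCusp 2 (⇑h * ⇑φ) := e11 ▸ dsq_dshCusp_mul (k₁ := 1) (k₂ := 1) (dshCusp_coe h)
    (ModularFormClass.holo φ) (fun γ => ModularFormClass.bdd_at_infty_slash φ γ)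
  have hi1 : ∀ γ ∈ Gamma1 M, (⇑h * ⇑φ) ∣[(2 : ℤ)] γ = ⇑h * ⇑φ := by
    intro γ hγ
    rw [← e11, mul_slash_SL2, dshInv_coe h γ hγ, dsq_inv_of_modularForm φ γ hγ]
  have hc2 : DshCusp 2 (⇑h * ⇑h) := e11 ▸ dsq_dshCusp_mul (k₁ := 1) (k₂ := 1) (dshCusp_coe h)
    (dshCusp_coe h).1 (fun γ => ((dshCusp_coe h).slash_SL γ).isBoundedAtImInfty)
  have hi2 : ∀ γ ∈ Gamma1 M, (⇑h * ⇑h) ∣[(2 : ℤ)] γ = ⇑h * ⇑h := by
    intro γ hγ
    rw [← e11, mul_slash_SL2, dshInv_coe h γ hγ]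
  obtain ⟨G', hG'⟩ := h2 (dshMkCusp (Gamma1 M) 2 (⇑h * ⇑φ) hc1 hi1) σ
  obtain ⟨G, hG⟩ := h2 (dshMkCusp (Gamma1 M) 2 (⇑h * ⇑h) hc2 hi2) σ
  have hnG' : DshNice ⇑G' := dshNice_of_cuspForm G'
  have hnG : DshNice ⇑G := dshNice_of_cuspForm G
  -- the `q`-expansions
  set Ph : PowerSeries ℂ := qExpansion 1 ⇑h with hPh
  set Pφ : PowerSeries ℂ := qExpansion 1 ⇑φ with hPφ
  have hσφ : PowerSeries.map σ Pφ = Pφ := dsq_map_eq_self_of_int σ Pφ hφint
  have hqG' : qExpansion 1 ⇑G' = PowerSeries.map σ Ph * Pφ := by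
    have : qExpansion 1 ⇑G' = PowerSeries.map σ (Ph * Pφ) := by
      ext n
      rw [PowerSeries.coeff_map, ← hnh.qExpansion_mul hnφ]
      exact hG' n
    rw [this, map_mul, hσφ]
  have hqG : qExpansion 1 ⇑G = PowerSeries.map σ Ph * PowerSeries.map σ Ph := by
    have : qExpansion 1 ⇑G = PowerSeries.map σ (Ph * Ph) := by
      ext n
      rw [PowerSeries.coeff_map, ← hnh.qExpansion_mul hnh]
      exact hG n
    rw [this, map_mul]
  -- the identity `G'² = G φ²`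
  have hrel : ⇑G' * ⇑G' = ⇑G * (⇑φ * ⇑φ) := by
    refine (hnG'.mul hnG').ext_qExpansion (hnG.mul (hnφ.mul hnφ)) ?_
    rw [hnG'.qExpansion_mul hnG', hnG.qExpansion_mul (hnφ.mul hnφ), hnφ.qExpansion_mul hnφ, hqG',
      hqG]
    ring
  have hφne : (⇑φ : ℍ → ℂ) ≠ 0 := by
    intro h0
    have : qCoeff (⇑φ) 0 = 0 := by rw [h0]; exact dsh_qCoeff_zero 0
    rw [hφ0] at this
    exact one_ne_zero this
  have hPφne : Pφ ≠ 0 := by
    intro h0
    have : PowerSeries.coeff 0 Pφ = 1 := hφ0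
    rw [h0] at this
    simp at this
  -- the quotient
  obtain ⟨H, hH, hHφ, hHH⟩ := dsq_exists_mdiff_div (dshCusp_coe G').1 (ModularFormClass.holo φ)
    (dshCusp_coe G).1 hφne hrel
  have hHc : DshCusp 1 H := dsq_dshCusp_of_sq hH (e11.symm ▸ dshCusp_coe G) hHH
  have hHi : ∀ γ ∈ Gamma1 M, H ∣[(1 : ℤ)] γ = H := by
    intro γ hγ
    have h1 : (H ∣[(1 : ℤ)] γ - H) * ⇑φ = 0 := by
      have h3 : (H ∣[(1 : ℤ)] γ) * ⇑φ = H * ⇑φ := by
        have h4 : (H * ⇑φ) ∣[(1 : ℤ) + 1] γ = (H ∣[(1 : ℤ)] γ) * ⇑φ := by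
          rw [mul_slash_SL2, dsq_inv_of_modularForm φ γ hγ]
        rw [← h4, hHφ, e11]
        exact dshInv_coe G' γ hγ
      rw [sub_mul, h3, sub_self]
    rcases (UpperHalfPlane.mul_eq_zero_iff ((hH.slash 1 _).sub hH)
      (ModularFormClass.holo φ)).mp h1 with h5 | h5
    · exact sub_eq_zero.mp h5
    · exact absurd h5 hφne
  refine ⟨dshMkCusp (Gamma1 M) 1 H hHc hHi, fun n => ?_⟩
  have hnH : DshNice H := dshNice_of_inv_cusp hHi hHc
  have h6 : qExpansion 1 H * Pφ = PowerSeries.map σ Ph * Pφ := by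
    rw [← hnH.qExpansion_mul hnφ, hHφ, hqG']
  have h7 : qExpansion 1 H = PowerSeries.map σ Ph := mul_right_cancel₀ hPφne h6
  rw [coe_dshMkCusp]
  show PowerSeries.coeff n (qExpansion 1 H) = σ (PowerSeries.coeff n Ph)
  rw [h7, PowerSeries.coeff_map]

end Fermat.Agent.DS
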