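/-
DS-Q / X2 (helper2): **`DsqSpan M`** — all `q`-coefficients of the weight-two cusp forms on `Γ₁(M)`
are fixed integral linear combinations of finitely many of them.

* `dsq_exists_hecke_coeff` : for every `n` there is `t_n` in the full Hecke algebra `tgHeckeAlg M ∅`
  with `a_n(g) = a_1(t_n g)` for all `g` (strong induction, `qCoeff_dshTLin`, `qCoeff_dshULin`);
* `dsq_span` : the `ℤ`-span of the functionals `a_n` is contained in the finitely generated
  `ℤ`-module `{a_1 ∘ t}` (`tg_moduleFinite_heckeAlg`), hence finitely generated.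
-/
import Fermat.Agent.Lib.DS.Rat.Defs
import Fermat.Agent.Lib.T1G.Mult.Cusp
import Fermat.Agent.Lib.T1G.Mult.HeckeFinite

set_option autoImplicit false
set_option linter.style.haveILetI false
set_option linter.unusedSectionVars false

open CongruenceSubgroup ModularFormClass

namespace Fermat.Agent.DS

open Fermat.Agent.T1G

variable (M : ℕ) [NeZero M]

/-- **the Hecke operators `T_n`**: `a_n(g) = a_1(t_n g)` -/
theorem dsq_exists_hecke_coeff (n : ℕ) :
    ∃ t : tgHeckeAlg M (∅ : Set ℕ), ∀ g : CuspForm (Gamma1 M) 2,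
      qCoeff ⇑g n = tgkA1 M ((t : Module.End ℂ (CuspForm (Gamma1 M) 2)) g) := by
  induction n using Nat.strong_induction_on with
  | _ n ih =>
    rcases Nat.lt_or_ge n 2 with hn | hn
    · interval_cases n
      · refine ⟨0, fun g => ?_⟩
        rw [ZeroMemClass.coe_zero, LinearMap.zero_apply, map_zero]
        exact (dshNice_of_cuspForm g).qCoeff_zero_of_isZeroAtImInfty (dshCusp_coe g).isZeroAtImInfty
      · refine ⟨1, fun g => ?_⟩
        rw [Subalgebra.coe_one, Module.End.one_apply, tgkA1_apply]
    · have hn1 : n ≠ 1 := by omega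
      have hp : (n.minFac).Prime := Nat.minFac_prime hn1
      set p := n.minFac with hpdef
      obtain ⟨m, hm⟩ : p ∣ n := Nat.minFac_dvd n
      have hmn : m < n := by
        rw [hm]
        have hm0 : 0 < m := by
          rcases Nat.eq_zero_or_pos m with h0 | h0
          · rw [h0, mul_zero] at hm; omega
          · exact h0
        have := hp.two_le
        nlinarith
      have hnmp : n = m * p := by rw [hm, mul_comm]
      obtain ⟨tm, htm⟩ := ih m hmn
      by_cases hpM : p ∣ M
      · refine ⟨tm * tgU hp hpM (Set.notMem_empty p), fun g => ?_⟩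
        rw [Subalgebra.coe_mul, Module.End.mul_apply, coe_tgU, ← htm, qCoeff_dshULin, hnmp]
      · by_cases hpm : p ∣ m
        · have hlt : m / p < n := lt_of_le_of_lt (Nat.div_le_self m p) hmn
          obtain ⟨td, htd⟩ := ih (m / p) hlt
          refine ⟨tm * tgT hp hpM (Set.notMem_empty p)
            - (p : tgHeckeAlg M (∅ : Set ℕ)) * (td * tgDia M ∅ (dshUnit M hp hpM)), fun g => ?_⟩
          have h1 := qCoeff_dshTLin hp hpM g m
          rw [if_pos hpm] at h1
          have hcast : ((p : tgHeckeAlg M (∅ : Set ℕ)) : Module.End ℂ (CuspForm (Gamma1 M) 2))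
              = (p : Module.End ℂ (CuspForm (Gamma1 M) 2)) :=
            map_natCast (tgHeckeAlg M (∅ : Set ℕ)).val p
          rw [Subalgebra.coe_sub, LinearMap.sub_apply, map_sub, Subalgebra.coe_mul,
            Module.End.mul_apply, coe_tgT, ← htm, h1, Subalgebra.coe_mul, Subalgebra.coe_mul,
            Module.End.mul_apply, Module.End.mul_apply, coe_tgDia, hcast,
            Module.End.natCast_apply, map_nsmul, ← htd, hnmp, nsmul_eq_mul]
          norm_num
        · refine ⟨tm * tgT hp hpM (Set.notMem_empty p), fun g => ?_⟩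
          have h1 := qCoeff_dshTLin hp hpM g m
          rw [if_neg hpm, add_zero] at h1
          rw [Subalgebra.coe_mul, Module.End.mul_apply, coe_tgT, ← htm, h1, hnmp]

/-- the `ℤ`-linear map `t ↦ a_1 ∘ t` into the dual of the space of cusp forms -/
noncomputable def dsqDualMap :
    tgHeckeAlg M (∅ : Set ℕ) →ₗ[ℤ] Module.Dual ℂ (CuspForm (Gamma1 M) 2) where
  toFun t := tgkA1 M ∘ₗ (t : Module.End ℂ (CuspForm (Gamma1 M) 2))
  map_add' s t := by
    rw [Subalgebra.coe_add, LinearMap.comp_add]
  map_smul' z t := by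
    rw [Subalgebra.coe_smul, LinearMap.comp_smul, RingHom.id_apply]

theorem dsqDualMap_apply (t : tgHeckeAlg M (∅ : Set ℕ)) (g : CuspForm (Gamma1 M) 2) :
    dsqDualMap M t g = tgkA1 M ((t : Module.End ℂ (CuspForm (Gamma1 M) 2)) g) := rfl

/-- **X2**: finitely many `q`-coefficients determine all the others by fixed integral linear
combinations -/
theorem dsq_span : DsqSpan M := by
  classical
  choose t ht using dsq_exists_hecke_coeff M
  set a : ℕ → Module.Dual ℂ (CuspForm (Gamma1 M) 2) := fun n => dsqDualMap M (t n) with ha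
  have hag : ∀ n g, a n g = qCoeff ⇑g n := fun n g => (ht n g).symm
  -- the range of `dsqDualMap` is a noetherian `ℤ`-module
  have hR : (LinearMap.range (dsqDualMap M)).FG := by
    rw [LinearMap.range_eq_map]
    exact (Module.Finite.fg_top).map _
  haveI hN : IsNoetherian ℤ ↥(LinearMap.range (dsqDualMap M)) :=
    isNoetherian_of_fg_of_noetherian _ hR
  have hΛ : (Submodule.span ℤ (Set.range a)).FG := by
    refine isNoetherian_submodule.mp hN _ (Submodule.span_le.mpr ?_)
    rintro _ ⟨n, rfl⟩
    exact ⟨t n, rfl⟩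
  obtain ⟨s', hs', hspan⟩ := (Submodule.fg_span_iff_fg_span_finset_subset _).mp hΛ
  obtain ⟨I, -, hI⟩ := Finset.subset_set_image_iff.mp
    (by rwa [Set.image_univ] : (↑s' : Set _) ⊆ a '' Set.univ)
  have hmem : ∀ n, a n ∈ Submodule.span ℤ (a '' (↑I : Set ℕ)) := by
    intro n
    have h1 : a n ∈ Submodule.span ℤ (Set.range a) := Submodule.subset_span ⟨n, rfl⟩
    rw [hspan, ← hI, Finset.coe_image] at h1
    exact h1
  have hex : ∀ n, ∃ c : ℕ → ℤ, a n = ∑ i ∈ I, c i • a i := by
    intro n
    obtain ⟨l, hl, hln⟩ := (Finsupp.mem_span_image_iff_linearCombination ℤ).mp (hmem n)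
    refine ⟨fun i => l i, ?_⟩
    rw [← hln, Finsupp.linearCombination_apply, Finsupp.sum]
    refine Finset.sum_subset ?_ ?_
    · intro i hi
      exact Finset.mem_coe.mp ((Finsupp.mem_supported ℤ l).mp hl hi)
    · intro i _ hi
      rw [Finsupp.notMem_support_iff.mp hi, zero_smul]
  choose c hc using hex
  refine ⟨I, c, fun g n => ?_⟩
  rw [← hag n g, hc n, LinearMap.sum_apply]
  refine Finset.sum_congr rfl fun i _ => ?_
  rw [LinearMap.smul_apply, hag, zsmul_eq_mul]

end Fermat.Agent.DS
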