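/-
DS-Q / X1 (helper2): **`DsqConj M 2`** — the space of weight-two cusp forms on `Γ₁(M)` is stable, on
`q`-expansions, under every ring endomorphism of `ℂ` — from the abstract Eichler–Shimura package
(a lattice `L` with Hecke action and a Hecke-equivariant isomorphism `Φ : S₂ × S₂ ≃ ℂ ⊗ L`).

* `dsq_exists_of_functional` : for a finite-dimensional space `V` with a commuting family of
  operators `act t` and a functional `a1` satisfying the `q`-expansion principle, every function
  `μ : 𝕋 → K` respecting the `K`-linear relations between the operators is `t ↦ a1 (act t f)`;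
* `dsq_exists_of_additive` : with the lattice, every ADDITIVE `μ : 𝕋 → ℂ` qualifies
  (`TerMultData.hext`);
* `dsq_conj_two_of_lattice` : `DsqConj M 2`.
-/
import Fermat.Agent.Lib.DS.Rat.Span

set_option autoImplicit false
set_option linter.style.haveILetI false
set_option linter.unusedSectionVars false

open scoped TensorProduct
open CongruenceSubgroup ModularFormClass

namespace Fermat.Agent.DS

open Fermat.Agent.T1G Fermat.Agent.T1

section Abstract

variable {K : Type*} [Field K] {V : Type*} [AddCommGroup V] [Module K V]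
  {𝕋 : Type*} [CommRing 𝕋] (act : 𝕋 →+* Module.End K V) (a1 : V →ₗ[K] K)

/-- every function on `𝕋` respecting the linear relations between the operators is represented by
a vector -/
theorem dsq_exists_of_functional [FiniteDimensional K V]
    (hsep : ∀ f, (∀ t, a1 (act t f) = 0) → f = 0) (μ : 𝕋 → K)
    (hext : ∀ c : 𝕋 →₀ K, Finsupp.linearCombination K (fun t => act t) c = 0 →
      Finsupp.linearCombination K (fun t => μ t) c = 0) :
    ∃ f : V, ∀ t, a1 (act t f) = μ t := by
  classical
  let B : (𝕋 →₀ K) →ₗ[K] Module.Dual K V :=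
    Finsupp.linearCombination K (fun t => a1 ∘ₗ act t)
  have hB : ∀ c f, B c f = a1 (Finsupp.linearCombination K (fun t => act t) c f) := by
    intro c f
    induction c using Finsupp.induction_linear with
    | zero => simp
    | add c₁ c₂ h₁ h₂ =>
      rw [map_add, LinearMap.add_apply, h₁, h₂, map_add, LinearMap.add_apply, map_add]
    | single t a =>
      simp only [B, Finsupp.linearCombination_single, LinearMap.smul_apply, LinearMap.comp_apply,
        map_smul]
  let G : V →ₗ[K] Module.Dual K (𝕋 →₀ K) := B.flip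
  let μLin : Module.Dual K (𝕋 →₀ K) := Finsupp.linearCombination K (fun t => μ t)
  have hmem : μLin ∈ LinearMap.range G := by
    haveI : FiniteDimensional K ↥(LinearMap.range G) := LinearMap.finiteDimensional_range G
    rw [← Subspace.dualCoannihilator_dualAnnihilator_eq (W := LinearMap.range G),
      Submodule.mem_dualAnnihilator]
    intro c hc
    rw [Submodule.mem_dualCoannihilator] at hc
    apply hext
    refine LinearMap.ext fun f => hsep _ fun s => ?_
    rw [← Module.End.mul_apply, ter_linearCombination_comm,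
      Module.End.mul_apply, ← hB]
    exact hc (G (act s f)) ⟨_, rfl⟩
  obtain ⟨f, hf⟩ := hmem
  refine ⟨f, fun t => ?_⟩
  have h1 := LinearMap.congr_fun hf (Finsupp.single t 1)
  simpa [G, B, μLin, Finsupp.linearCombination_single] using h1

end Abstract

/-- with the lattice, every additive map on the Hecke algebra is `t ↦ a1 (t f)` -/
theorem dsq_exists_of_additive {V : Type} [AddCommGroup V] [Module ℂ V]
    {𝕋 : Type} [CommRing 𝕋] {L : Type} [AddCommGroup L] [Module.Free ℤ L] [Module.Finite ℤ L]
    (D : TerMultData ℂ V 𝕋 L) (μ : 𝕋 →+ ℂ) :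
    ∃ f : V, ∀ t, D.a1 (D.act t f) = μ t :=
  haveI := D.finiteDimensional
  dsq_exists_of_functional D.act D.a1 D.sep (fun t => μ t) fun c hc => D.hext μ c hc

variable {M : ℕ} [NeZero M] {L : Type} [AddCommGroup L] [Module.Free ℤ L] [Module.Finite ℤ L]
  (heckeL : tgHeckeAlg M (∅ : Set ℕ) →+* Module.End ℤ L)
  (Φ : (CuspForm (Gamma1 M) 2 × CuspForm (Gamma1 M) 2) ≃ₗ[ℂ] ℂ ⊗[ℤ] L)
  (hΦ : ∀ (t : tgHeckeAlg M (∅ : Set ℕ)) (f g : CuspForm (Gamma1 M) 2),
      (heckeL t).baseChange ℂ (Φ (f, g)) =
        Φ ((t : Module.End ℂ (CuspForm (Gamma1 M) 2)) f,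
          (t : Module.End ℂ (CuspForm (Gamma1 M) 2)) g))

include hΦ in
/-- **X1** from the Eichler–Shimura lattice: `S₂(Γ₁(M))` is stable under the ring endomorphisms of
`ℂ` acting on `q`-expansions -/
theorem dsq_conj_two_of_lattice : DsqConj M 2 := by
  intro g σ
  set D := tgkCuspData heckeL Φ hΦ with hD
  -- the additive map `t ↦ σ (a_1 (t g))`
  let μ : tgHeckeAlg M (∅ : Set ℕ) →+ ℂ :=
    { toFun := fun t => σ (tgkA1 M ((t : Module.End ℂ (CuspForm (Gamma1 M) 2)) g))
      map_zero' := by
        rw [ZeroMemClass.coe_zero, LinearMap.zero_apply, map_zero, map_zero]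
      map_add' := fun s t => by
        rw [Subalgebra.coe_add, LinearMap.add_apply, map_add, map_add] }
  obtain ⟨g', hg'⟩ := dsq_exists_of_additive D μ
  refine ⟨g', fun n => ?_⟩
  obtain ⟨t, ht⟩ := dsq_exists_hecke_coeff M n
  have h1 := hg' t
  rw [ht g', ht g]
  exact h1

end Fermat.Agent.DS
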