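/-
DS-Q / X1 (helper2), final form: **`DsqConj M 2` for every level `M ≥ 6`**, from helper7's
Eichler–Shimura lattice for `Γ₁(M)` (`tgeHecke`, `tgePhi`, `tgeHecke_spec`) and the surjectivity of
the period pairing (`tgePair_surjective_Gamma1_six`).
-/
import Fermat.Agent.Lib.DS.Rat.ConjTwo
import Fermat.Agent.Lib.T1G.ES.HeckeAlgGlue
import Fermat.Agent.Lib.T1G.ES.DictModel

set_option autoImplicit false

open CongruenceSubgroup

namespace Fermat.Agent.DS

open Fermat.Agent.T1G

/-- **X1**: the space of weight-two cusp forms on `Γ₁(M)`, `M ≥ 6`, is stable under the ring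
endomorphisms of `ℂ` acting on `q`-expansions -/
theorem dsq_conj_two (M : ℕ) [NeZero M] (hM : 6 ≤ M) : DsqConj M 2 :=
  dsq_conj_two_of_lattice
    (tgeHecke M (tgePair_surjective_Gamma1_six M hM) ∅)
    (tgePhi (Gamma1 M) (tgePair_surjective_Gamma1_six M hM))
    (tgeHecke_spec M (tgePair_surjective_Gamma1_six M hM) ∅)

end Fermat.Agent.DS
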