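/-
DS-Q (lead), file 3: **depletion**.  For a cusp form `f` of level `Γ₁(M)` there is a cusp form `f'`
of some level `Γ₁(M')`, `M ∣ M'` with the same prime divisors, whose `q`-expansion is the part of the
`q`-expansion of `f` supported on the integers prime to `M`:  `f' = ∏_{r ∣ M} (1 - V_r U_r) f`.
-/
import Mathlib
import Fermat.Agent.Lib.DS.Hecke.DS0Forms

set_option autoImplicit false
set_option linter.style.haveILetI false

open CongruenceSubgroup ModularFormClass

namespace Fermat.Agent.DS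

/-- `qCoeff` of a cusp form is additive etc.: the coefficient maps are linear -/
theorem dsq_qCoeff_sub {N : ℕ} [NeZero N] {k : ℤ} (f g : CuspForm (Gamma1 N) k) (n : ℕ) :
    qCoeff (⇑(f - g)) n = qCoeff f n - qCoeff g n := by
  have : (⇑(f - g) : UpperHalfPlane → ℂ) = ⇑f - ⇑g := rfl
  rw [this, (dshNice_of_cuspForm f).qCoeff_sub (dshNice_of_cuspForm g)]

theorem dsq_qCoeff_smul {N : ℕ} [NeZero N] {k : ℤ} (c : ℂ) (f : CuspForm (Gamma1 N) k) (n : ℕ) :
    qCoeff (⇑(c • f)) n = c * qCoeff f n := by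
  have : (⇑(c • f) : UpperHalfPlane → ℂ) = c • ⇑f := rfl
  rw [this, (dshNice_of_cuspForm f).qCoeff_smul]

theorem dsq_qCoeff_zero_form {N : ℕ} [NeZero N] {k : ℤ} (n : ℕ) :
    qCoeff (0 : CuspForm (Gamma1 N) k) n = 0 := by
  have : (⇑(0 : CuspForm (Gamma1 N) k) : UpperHalfPlane → ℂ) = 0 := rfl
  rw [this, dsh_qCoeff_zero]

/-- the constant coefficient of a cusp form vanishes -/
theorem dsq_qCoeff_zero {N : ℕ} [NeZero N] {k : ℤ} (f : CuspForm (Gamma1 N) k) :
    qCoeff f 0 = 0 :=
  (dshNice_of_cuspForm f).qCoeff_zero_of_isZeroAtImInfty (dshCusp_coe f).isZeroAtImInfty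

/-- one step of the depletion: removing the coefficients with index divisible by `r ∣ N` -/
theorem dsq_exists_deplete_step {N : ℕ} [NeZero N] (k : ℤ) (f : CuspForm (Gamma1 N) k) {r : ℕ}
    (hr : r.Prime) (hrN : r ∣ N) :
    ∃ f' : CuspForm (Gamma1 (N * r)) k, ∀ n : ℕ,
      qCoeff f' n = if r ∣ n then 0 else qCoeff f n := by
  haveI : NeZero r := ⟨hr.ne_zero⟩
  have hr0 : ((r : ℂ) ^ (k - 1)) ≠ 0 := zpow_ne_zero _ (Nat.cast_ne_zero.mpr hr.ne_zero)
  refine ⟨dshLevelIncl k (Dvd.intro r rfl) f -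
    ((r : ℂ) ^ (k - 1))⁻¹ • dshVLin k N r (dshULin k hrN f), fun n => ?_⟩
  rw [dsq_qCoeff_sub, dsq_qCoeff_smul, qCoeff_dshVLin]
  have h1 : qCoeff (dshLevelIncl k (Dvd.intro r rfl : N ∣ N * r) f) n = qCoeff f n := rfl
  rw [h1]
  by_cases hn : r ∣ n
  · rw [if_pos hn, if_pos hn, qCoeff_dshULin, Nat.div_mul_cancel hn, ← mul_assoc,
      inv_mul_cancel₀ hr0, one_mul, sub_self]
  · rw [if_neg hn, if_neg hn, mul_zero, sub_zero]

/-- depletion with respect to a finite set of primes dividing the level -/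
theorem dsq_exists_deplete_finset {M : ℕ} [NeZero M] (k : ℤ) (f : CuspForm (Gamma1 M) k)
    (S : Finset ℕ) (hS : S ⊆ M.primeFactors) :
    ∃ (M' : ℕ) (_ : NeZero M'), M ∣ M' ∧ M'.primeFactors = M.primeFactors ∧
      ∃ f' : CuspForm (Gamma1 M') k, ∀ n : ℕ,
        qCoeff f' n = if ∀ r ∈ S, ¬ r ∣ n then qCoeff f n else 0 := by
  classical
  induction S using Finset.induction_on with
  | empty =>
    refine ⟨M, inferInstance, dvd_rfl, rfl, f, fun n => ?_⟩
    rw [if_pos (by simp)]
  | insert r S hrS ih =>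
    obtain ⟨M', hM', hMM', hpf, f', hf'⟩ := ih ((Finset.subset_insert r S).trans hS)
    have hrM : r ∈ M.primeFactors := hS (Finset.mem_insert_self r S)
    have hr : r.Prime := Nat.prime_of_mem_primeFactors hrM
    have hrM' : r ∣ M' := (Nat.dvd_of_mem_primeFactors hrM).trans hMM'
    obtain ⟨f'', hf''⟩ := dsq_exists_deplete_step k f' hr hrM'
    have hne : M' * r ≠ 0 := mul_ne_zero (NeZero.ne M') hr.ne_zero
    refine ⟨M' * r, ⟨hne⟩, hMM'.trans (Dvd.intro r rfl), ?_, f'', fun n => ?_⟩
    · rw [Nat.primeFactors_mul (NeZero.ne M') hr.ne_zero, hr.primeFactors, hpf]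
      exact Finset.union_eq_left.mpr (Finset.singleton_subset_iff.mpr hrM)
    · rw [hf'', hf']
      by_cases hn : r ∣ n
      · rw [if_pos hn, if_neg]
        intro h
        exact h r (Finset.mem_insert_self r S) hn
      · rw [if_neg hn]
        refine if_congr ?_ rfl rfl
        constructor
        · intro h q hq
          rcases Finset.mem_insert.mp hq with rfl | hq'
          · exact hn
          · exact h q hq'
        · intro h q hq
          exact h q (Finset.mem_insert_of_mem hq)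

/-- **depletion**: the part of the `q`-expansion of `f` supported on the integers prime to the
level is again a cusp form (of a higher level with the same prime divisors) -/
theorem dsq_exists_deplete {M : ℕ} [NeZero M] (k : ℤ) (f : CuspForm (Gamma1 M) k) :
    ∃ (M' : ℕ) (_ : NeZero M'), M ∣ M' ∧ M'.primeFactors = M.primeFactors ∧
      ∃ f' : CuspForm (Gamma1 M') k, ∀ n : ℕ,
        qCoeff f' n = if n.Coprime M then qCoeff f n else 0 := by
  obtain ⟨M', hM', hMM', hpf, f', hf'⟩ :=
    dsq_exists_deplete_finset k f M.primeFactors (Finset.Subset.refl _)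
  refine ⟨M', hM', hMM', hpf, f', fun n => ?_⟩
  rw [hf']
  by_cases hn0 : n = 0
  · subst hn0
    rw [dsq_qCoeff_zero]
    simp
  refine if_congr ?_ rfl rfl
  constructor
  · intro h
    apply Nat.coprime_of_dvd
    intro r hr hrn hrM
    exact h r (Nat.mem_primeFactors.mpr ⟨hr, hrM, NeZero.ne M⟩) hrn
  · intro h r hr hrn
    have hrp := Nat.prime_of_mem_primeFactors hr
    have hrM := Nat.dvd_of_mem_primeFactors hr
    exact hrp.one_lt.ne' (Nat.eq_one_of_dvd_coprimes h hrn hrM)

end Fermat.Agent.DS
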