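/-
DS-Q (lead), file 2: **automorphisms of `ℂ`**.

`DsqQb` is the algebraic closure of `ℚ` in `ℂ`.
* `dsq_exists_ringEquiv_of_qb` : every ring automorphism of `DsqQb` extends to a ring automorphism of
  `ℂ` (transcendence basis + uniqueness of algebraic closures, as in helper9's `DescentAlg.lean`);
* `dsq_exists_extension` : every ring homomorphism `K → ℂ` of an intermediate field `K` of `DsqQb / ℚ`
  is the restriction of a ring automorphism of `ℂ`;
* `dsq_mem_of_fixed` : a complex number fixed by all automorphisms of `ℂ` which fix `K` lies in `K`.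
-/
import Mathlib
import Fermat.Agent.Lib.T1.Dict.DescentAlg

set_option autoImplicit false
set_option linter.style.haveILetI false

open MvPolynomial

namespace Fermat.Agent.DS

/-- the algebraic closure of `ℚ` in `ℂ` -/
abbrev DsqQb : Type := ↥(algebraicClosure ℚ ℂ)

instance dsqQb_isAlgClosure : IsAlgClosure ℚ DsqQb := algebraicClosure.isAlgClosure ℚ ℂ

instance dsqQb_isAlgebraic : Algebra.IsAlgebraic ℚ DsqQb := algebraicClosure.isAlgebraic ℚ ℂ

instance dsqQb_isAlgClosed : IsAlgClosed DsqQb := IsAlgClosure.isAlgClosed ℚ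

/-- every ring automorphism of `DsqQb` extends to `ℂ` -/
theorem dsq_exists_ringEquiv_of_qb (τ : DsqQb ≃+* DsqQb) :
    ∃ σ : ℂ ≃+* ℂ, ∀ c : DsqQb, σ (c : ℂ) = ((τ c : DsqQb) : ℂ) := by
  obtain ⟨ι, v, hv⟩ := exists_isTranscendenceBasis' DsqQb ℂ
  let _ := IsAlgClosed.isAlgClosure_of_transcendence_basis v hv
  let e : ↥(Algebra.adjoin DsqQb (Set.range v)) ≃+* ↥(Algebra.adjoin DsqQb (Set.range v)) :=
    (hv.1.aevalEquiv.symm.toRingEquiv.trans (MvPolynomial.mapEquiv ι τ)).trans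
      hv.1.aevalEquiv.toRingEquiv
  let σ₀ : ℂ ≃+* ℂ := IsAlgClosure.equivOfEquiv ℂ ℂ e
  have hσ₀ : ∀ s : ↥(Algebra.adjoin DsqQb (Set.range v)),
      σ₀ (algebraMap _ ℂ s) = algebraMap _ ℂ (e s) := fun s =>
    IsAlgClosure.equivOfEquiv_algebraMap ℂ ℂ e s
  refine ⟨σ₀, fun c => ?_⟩
  have h1 : ((c : DsqQb) : ℂ) =
      algebraMap ↥(Algebra.adjoin DsqQb (Set.range v)) ℂ (algebraMap DsqQb _ c) := rfl
  have h2 : (((τ c : DsqQb)) : ℂ) =
      algebraMap ↥(Algebra.adjoin DsqQb (Set.range v)) ℂ (algebraMap DsqQb _ (τ c)) := rfl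
  rw [h1, hσ₀, h2]
  congr 1
  show hv.1.aevalEquiv (MvPolynomial.mapEquiv ι τ (hv.1.aevalEquiv.symm (algebraMap DsqQb _ c)))
    = _
  have h3 : hv.1.aevalEquiv.symm (algebraMap DsqQb _ c) = MvPolynomial.C c := by
    rw [AlgEquiv.symm_apply_eq]
    exact (hv.1.aevalEquiv.commutes c).symm
  rw [h3]
  have h4 : MvPolynomial.mapEquiv ι τ (MvPolynomial.C c) = MvPolynomial.C (τ c) := by
    rw [MvPolynomial.mapEquiv_apply, MvPolynomial.map_C]
    rfl
  rw [h4]
  exact hv.1.aevalEquiv.commutes (τ c)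

/-- every ring homomorphism `K → ℂ` of a subfield `K` of `DsqQb` is the restriction of an
automorphism of `ℂ` -/
theorem dsq_exists_extension (K : IntermediateField ℚ DsqQb) (φ : K →+* ℂ) :
    ∃ σ : ℂ ≃+* ℂ, ∀ x : K, σ (((x : DsqQb)) : ℂ) = φ x := by
  -- extend to `DsqQb`
  obtain ⟨ψ, hψ⟩ := IsAlgClosed.surjective_domRestrict_of_isAlgebraic (K := ℚ) (L := K)
    (M := ℂ) (E := DsqQb) (φ.toRatAlgHom)
  -- `ψ` has values in `DsqQb`
  have hmem : ∀ x : DsqQb, ψ x ∈ algebraicClosure ℚ ℂ := by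
    intro x
    rw [mem_algebraicClosure_iff]
    exact IsAlgebraic.algHom ψ (Algebra.IsAlgebraic.isAlgebraic (R := ℚ) x)
  let ψ' : DsqQb →ₐ[ℚ] DsqQb :=
    { toFun := fun x => ⟨ψ x, hmem x⟩
      map_one' := Subtype.ext (map_one ψ)
      map_mul' := fun x y => Subtype.ext (map_mul ψ x y)
      map_zero' := Subtype.ext (map_zero ψ)
      map_add' := fun x y => Subtype.ext (map_add ψ x y)
      commutes' := fun r => Subtype.ext (ψ.commutes r) }
  have hbij : Function.Bijective ψ' := Algebra.IsAlgebraic.algHom_bijective ψ'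
  let τ : DsqQb ≃+* DsqQb := RingEquiv.ofBijective ψ'.toRingHom hbij
  obtain ⟨σ, hσ⟩ := dsq_exists_ringEquiv_of_qb τ
  refine ⟨σ, fun x => ?_⟩
  rw [hσ]
  show ψ (x : DsqQb) = φ x
  have := congrArg (fun g : K →ₐ[ℚ] ℂ => g x) hψ
  exact this

/-- a complex number which is fixed by all automorphisms of `ℂ` fixing a subfield `K` of `DsqQb`
lies in `K` -/
theorem dsq_mem_of_fixed (K : IntermediateField ℚ DsqQb) (x : ℂ)
    (h : ∀ σ : ℂ ≃+* ℂ, (∀ c : K, σ (((c : DsqQb)) : ℂ) = ((c : DsqQb) : ℂ)) → σ x = x) :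
    ∃ c : K, (((c : DsqQb)) : ℂ) = x := by
  -- `x` is algebraic
  have hx : x ∈ (algebraMap DsqQb ℂ).range := by
    apply Fermat.Agent.T1.tdd_mem_range_of_finite_orbit (K := DsqQb) (Ω := ℂ) x
    have hsub : (Set.range fun σ : ℂ ≃ₐ[DsqQb] ℂ => σ x) ⊆ {x} := by
      rintro _ ⟨σ, rfl⟩
      exact h σ.toRingEquiv fun c => σ.commutes (c : DsqQb)
    exact (Set.finite_singleton x).subset hsub
  obtain ⟨x₀, rfl⟩ := hx
  -- Galois theory of `DsqQb / K`
  haveI : IsAlgClosure K DsqQb := ⟨inferInstance, Algebra.IsAlgebraic.tower_top (K := ℚ) K⟩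
  haveI : IsGalois K DsqQb := IsAlgClosure.isGalois K DsqQb
  have hx₀ : x₀ ∈ (⊥ : IntermediateField K DsqQb) := by
    rw [InfiniteGalois.mem_bot_iff_fixed]
    intro f
    obtain ⟨σ, hσ⟩ := dsq_exists_ringEquiv_of_qb f.toRingEquiv
    have h1 := h σ fun c => by
      rw [hσ]
      exact congrArg (fun y : DsqQb => (y : ℂ)) (f.commutes c)
    have h2 : σ ((x₀ : DsqQb) : ℂ) = ((f x₀ : DsqQb) : ℂ) := hσ x₀
    have h3 : ((f x₀ : DsqQb) : ℂ) = ((x₀ : DsqQb) : ℂ) := h2.symm.trans h1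
    exact Subtype.ext h3
  obtain ⟨c, hc⟩ := IntermediateField.mem_bot.mp hx₀
  exact ⟨c, by rw [← hc]; rfl⟩

end Fermat.Agent.DS
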