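/-
DS-Q (lead), file 4: **conjugate forms**.  Level `M`, `f ∈ S₁(Γ₁(M))` with `a_1 = 1` satisfying the
Hecke relations `hT` of S48 with the character `ε`; `hQ : DsqConj M 1`.

* a conjugate `f'` of `f` (`qCoeff f' n = σ (qCoeff f n)`) satisfies `hT` with `σ ∘ ε`, hence the
  Rankin bound holds for `σ ∘ a` (`dsq_rankin_conj`) and `σ (a p)` is an eigenvalue of `T_p`;
* the coefficients `a p` (`p ∤ M`) are algebraic (`dsq_coeff_prime_mem_qb`);
* the coefficients `a n`, `n` prime to `M`, lie in every subring containing the `a p`, `ε p`.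
-/
import Mathlib
import Fermat.Agent.Lib.DS.Rat.Defs
import Fermat.Agent.Lib.DS.Rat.Ext
import Fermat.Agent.Lib.DS.Rat.Deplete
import Fermat.Agent.Lib.DS.Rankin.Main
import Fermat.Agent.Lib.DS.Final.Defs

set_option autoImplicit false
set_option linter.style.haveILetI false

open CongruenceSubgroup ModularFormClass

namespace Fermat.Agent.DS

section conj

variable {M : ℕ} [NeZero M] (ε : DirichletCharacter ℂ M) (f : CuspForm (Gamma1 M) 1)

/-- the Hecke relations of S48 -/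
def DsqHecke : Prop :=
  ∀ p : ℕ, p.Prime → ¬ p ∣ M → ∀ n : ℕ,
    qCoeff f (p * n) + ε (p : ZMod M) * (if p ∣ n then qCoeff f (n / p) else 0) =
      qCoeff f p * qCoeff f n

variable {ε f}

/-- a conjugate of `f` satisfies the Hecke relations with the conjugate character -/
theorem DsqHecke.conj (hT : DsqHecke ε f) (σ : ℂ →+* ℂ) (f' : CuspForm (Gamma1 M) 1)
    (hf' : ∀ n : ℕ, qCoeff f' n = σ (qCoeff f n)) : DsqHecke (ε.ringHomComp σ) f' := by
  intro p hp hpM n
  have h := congrArg σ (hT p hp hpM n)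
  rw [map_add, map_mul, map_mul, apply_ite σ, map_zero] at h
  simp only [hf', MulChar.ringHomComp_apply]
  exact h

/-- a form with `a_1 = 1` is nonzero -/
theorem dsq_ne_zero_of_coeff_one (g : CuspForm (Gamma1 M) 1) (hg : qCoeff g 1 = 1) : g ≠ 0 := by
  rintro rfl
  rw [dsq_qCoeff_zero_form] at hg
  exact zero_ne_one hg

/-- the Rankin bound for the conjugate coefficients -/
theorem dsq_rankin_conj (hQ : DsqConj M 1) (hf₁ : qCoeff f 1 = 1) (hT : DsqHecke ε f)
    (σ : ℂ →+* ℂ) : DsfRankin M.primeFactors (fun p => σ (qCoeff f p)) := by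
  obtain ⟨f', hf'⟩ := hQ f σ
  have hf₁' : qCoeff f' 1 = 1 := by rw [hf', hf₁, map_one]
  obtain ⟨C, hC⟩ := dsr_rankin (ε.ringHomComp σ) f' hf₁' (hT.conj σ f' hf')
  refine ⟨C, fun s hs1 hs2 P hP => ?_⟩
  have h := hC s hs1 hs2 P fun p hp => ⟨(hP p hp).1, fun hpM =>
    (hP p hp).2 (Nat.mem_primeFactors.mpr ⟨(hP p hp).1, hpM, NeZero.ne M⟩)⟩
  simpa only [hf'] using h

/-- `σ (a p)` is an eigenvalue of `T_p` -/
theorem dsq_hasEigenvalue_conj (hQ : DsqConj M 1) (hf₁ : qCoeff f 1 = 1) (hT : DsqHecke ε f)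
    (σ : ℂ →+* ℂ) {p : ℕ} (hp : p.Prime) (hpM : ¬ p ∣ M) :
    Module.End.HasEigenvalue (dshTLin 1 hp hpM : Module.End ℂ (CuspForm (Gamma1 M) 1))
      (σ (qCoeff f p)) := by
  obtain ⟨f', hf'⟩ := hQ f σ
  have hf₁' : qCoeff f' 1 = 1 := by rw [hf', hf₁, map_one]
  have heig := dsh_dshTLin_eigen (ε.ringHomComp σ) f' (hT.conj σ f' hf') hp hpM
  rw [hf'] at heig
  refine Module.End.hasEigenvalue_of_hasEigenvector (x := f') ⟨?_, dsq_ne_zero_of_coeff_one f' hf₁'⟩
  rw [Module.End.mem_eigenspace_iff]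
  exact heig

/-- the coefficients `a p`, `p ∤ M`, are algebraic numbers -/
theorem dsq_coeff_prime_mem_qb (hQ : DsqConj M 1) (hf₁ : qCoeff f 1 = 1) (hT : DsqHecke ε f)
    {p : ℕ} (hp : p.Prime) (hpM : ¬ p ∣ M) : ∃ c : DsqQb, (c : ℂ) = qCoeff f p := by
  have hfin := Module.End.finite_hasEigenvalue
    (dshTLin 1 hp hpM : Module.End ℂ (CuspForm (Gamma1 M) 1))
  have h := Fermat.Agent.T1.tdd_mem_range_of_finite_orbit (K := DsqQb) (Ω := ℂ) (qCoeff f p)
    (hfin.subset (by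
      rintro _ ⟨σ, rfl⟩
      exact dsq_hasEigenvalue_conj hQ hf₁ hT (σ : ℂ →+* ℂ) hp hpM))
  obtain ⟨c, hc⟩ := h
  exact ⟨c, hc⟩

/-- the coefficients of index prime to `M` lie in every subring containing the `a p` and `ε p` -/
theorem dsq_coeff_mem_of_coprime (hf₁ : qCoeff f 1 = 1) (hT : DsqHecke ε f) (A : Subring ℂ)
    (hA : ∀ p : ℕ, p.Prime → ¬ p ∣ M → qCoeff f p ∈ A ∧ ε (p : ZMod M) ∈ A) :
    ∀ n : ℕ, n.Coprime M → qCoeff f n ∈ A := by
  -- prime powers
  have hpow : ∀ p : ℕ, p.Prime → ¬ p ∣ M → ∀ r : ℕ,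
      qCoeff f (p ^ r) ∈ A ∧ qCoeff f (p ^ (r + 1)) ∈ A := by
    intro p hp hpM r
    induction r with
    | zero =>
      refine ⟨?_, ?_⟩
      · rw [pow_zero, hf₁]; exact A.one_mem
      · rw [zero_add, pow_one]; exact (hA p hp hpM).1
    | succ r ih =>
      refine ⟨ih.2, ?_⟩
      rw [dsh_qCoeff_prime_pow ε f hT hp hpM r]
      exact A.sub_mem (A.mul_mem (hA p hp hpM).1 ih.2) (A.mul_mem (hA p hp hpM).2 ih.1)
  intro n
  induction n using Nat.recOnPosPrimePosCoprime with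
  | zero =>
    intro _
    rw [dsq_qCoeff_zero]
    exact A.zero_mem
  | one =>
    intro _
    rw [hf₁]
    exact A.one_mem
  | prime_pow p r hp hr =>
    intro hc
    have hpM : ¬ p ∣ M := by
      intro hpM
      have h1 : p ∣ p ^ r := dvd_pow_self p hr.ne'
      exact hp.one_lt.ne' (Nat.eq_one_of_dvd_coprimes hc h1 hpM)
    exact (hpow p hp hpM r).1
  | coprime a b _ _ hab iha ihb =>
    intro hc
    have hca : a.Coprime M := Nat.Coprime.coprime_mul_right hc
    have hcb : b.Coprime M := Nat.Coprime.coprime_mul_left hc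
    rw [dsh_qCoeff_mul_of_coprime ε f hT hf₁ hca hab]
    exact A.mul_mem (iha hca) (ihb hcb)

end conj

end Fermat.Agent.DS
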