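/-
DS-Q (lead), file 5: **the number field of coefficients**.  Level `N`, `g ∈ S₁(Γ₁(N))` with
`a_1 = 1`, satisfying the Hecke relations of S48 with the character `ε`, and **depleted**:
`a_n(g) = 0` unless `n` is prime to `N`;  `hQ : DsqConj N 1`.

* all coefficients of `g` and all values of `ε` are algebraic numbers;
* `dsqField` : the subfield of `DsqQb` generated by the first `B + 1` coefficients (`B` a Sturm
  bound) and the values of `ε`; it is finite over `ℚ` and contains ALL coefficients of `g`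
  (an automorphism of `ℂ` fixing it fixes `g`, by the Sturm bound);
* the Rankin bound for `φ ∘ a` for every embedding `φ` of this field into `ℂ`.
-/
import Mathlib
import Fermat.Agent.Lib.DS.Rat.Conj

set_option autoImplicit false
set_option linter.style.haveILetI false
set_option linter.unusedSectionVars false

open CongruenceSubgroup ModularFormClass

namespace Fermat.Agent.DS

/-- the values of a Dirichlet character are algebraic integers -/
theorem dsq_isIntegral_char {N : ℕ} [NeZero N] (ε : DirichletCharacter ℂ N) (u : ZMod N) :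
    IsIntegral ℤ (ε u) := by
  by_cases hu : IsUnit u
  · obtain ⟨v, rfl⟩ := hu
    have h1 : (ε (v : ZMod N)) ^ Fintype.card (ZMod N)ˣ = 1 := by
      rw [← map_pow, ← Units.val_pow_eq_pow_val, pow_card_eq_one, Units.val_one, map_one]
    exact IsIntegral.of_pow Fintype.card_pos (h1 ▸ isIntegral_one)
  · rw [MulChar.map_nonunit ε hu]
    exact isIntegral_zero

/-- the algebraic numbers, as a subring of `ℂ` -/
noncomputable def dsqQbSubring : Subring ℂ := (algebraicClosure ℚ ℂ).toSubalgebra.toSubring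

theorem mem_dsqQbSubring {x : ℂ} : x ∈ dsqQbSubring ↔ ∃ c : DsqQb, (c : ℂ) = x :=
  ⟨fun h => ⟨⟨x, h⟩, rfl⟩, fun ⟨c, hc⟩ => hc ▸ c.2⟩

theorem dsq_mem_qb_of_isIntegral {x : ℂ} (h : IsIntegral ℤ x) : ∃ c : DsqQb, (c : ℂ) = x := by
  refine ⟨⟨x, ?_⟩, rfl⟩
  rw [mem_algebraicClosure_iff, isAlgebraic_iff_isIntegral]
  exact h.tower_top

section field

variable {N : ℕ} [NeZero N] {ε : DirichletCharacter ℂ N} {g : CuspForm (Gamma1 N) 1}

/-- all coefficients of a depleted form are algebraic numbers -/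
theorem dsq_coeff_mem_qb (hQ : DsqConj N 1) (hg₁ : qCoeff g 1 = 1) (hT : DsqHecke ε g)
    (hsupp : ∀ n : ℕ, ¬ n.Coprime N → qCoeff g n = 0) (n : ℕ) :
    ∃ c : DsqQb, (c : ℂ) = qCoeff g n := by
  rw [← mem_dsqQbSubring]
  by_cases hn : n.Coprime N
  · refine dsq_coeff_mem_of_coprime hg₁ hT dsqQbSubring (fun p hp hpN => ⟨?_, ?_⟩) n hn
    · rw [mem_dsqQbSubring]
      exact dsq_coeff_prime_mem_qb hQ hg₁ hT hp hpN
    · rw [mem_dsqQbSubring]
      exact dsq_mem_qb_of_isIntegral (dsq_isIntegral_char ε _)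
  · rw [hsupp n hn]
    exact dsqQbSubring.zero_mem

/-- the generators of the field of coefficients -/
def dsqGens (ε : DirichletCharacter ℂ N) (g : CuspForm (Gamma1 N) 1) (B : ℕ) : Set DsqQb :=
  {c | (∃ n ≤ B, (c : ℂ) = qCoeff g n) ∨ ∃ u : ZMod N, (c : ℂ) = ε u}

theorem dsqGens_finite (ε : DirichletCharacter ℂ N) (g : CuspForm (Gamma1 N) 1) (B : ℕ) :
    (dsqGens ε g B).Finite := by
  have h1 : (dsqGens ε g B) ⊆ (fun c : DsqQb => (c : ℂ)) ⁻¹'
      ((fun n : ℕ => qCoeff g n) '' (Set.Iic B) ∪ Set.range (fun u : ZMod N => ε u)) := by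
    rintro c (⟨n, hn, hc⟩ | ⟨u, hc⟩)
    · exact Or.inl ⟨n, hn, hc.symm⟩
    · exact Or.inr ⟨u, hc.symm⟩
  refine Set.Finite.subset (Set.Finite.preimage (Subtype.val_injective.injOn) ?_) h1
  exact ((Set.finite_Iic B).image _).union (Set.finite_range _)

/-- the field generated by the first `B + 1` coefficients and the values of the character -/
noncomputable def dsqField (ε : DirichletCharacter ℂ N) (g : CuspForm (Gamma1 N) 1) (B : ℕ) :
    IntermediateField ℚ DsqQb :=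
  IntermediateField.adjoin ℚ (dsqGens ε g B)

instance dsqField_finiteDimensional (ε : DirichletCharacter ℂ N) (g : CuspForm (Gamma1 N) 1)
    (B : ℕ) : FiniteDimensional ℚ (dsqField ε g B) := by
  haveI : Finite (dsqGens ε g B) := (dsqGens_finite ε g B).to_subtype
  exact IntermediateField.finiteDimensional_adjoin fun x _ =>
    (Algebra.IsAlgebraic.isAlgebraic (R := ℚ) x).isIntegral

/-- an automorphism of `ℂ` fixing the field of coefficients fixes all coefficients (`B` a Sturm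
bound) -/
theorem dsq_coeff_fixed (hQ : DsqConj N 1) (hg₁ : qCoeff g 1 = 1) (hT : DsqHecke ε g)
    (hsupp : ∀ n : ℕ, ¬ n.Coprime N → qCoeff g n = 0) (B : ℕ)
    (hB : Function.Injective (dshCoeffMap N 1 B)) (σ : ℂ ≃+* ℂ)
    (hσ : ∀ c : dsqField ε g B, σ (((c : DsqQb)) : ℂ) = ((c : DsqQb) : ℂ)) (n : ℕ) :
    σ (qCoeff g n) = qCoeff g n := by
  obtain ⟨g', hg'⟩ := hQ g (σ : ℂ →+* ℂ)
  have heq : g' = g := by
    apply hB
    funext i
    show qCoeff g' i = qCoeff g i
    rw [hg']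
    obtain ⟨c, hc⟩ := dsq_coeff_mem_qb hQ hg₁ hT hsupp i
    have hcmem : c ∈ dsqField ε g B :=
      IntermediateField.subset_adjoin ℚ _ (Or.inl ⟨i, Nat.lt_succ_iff.mp i.2, hc⟩)
    have := hσ ⟨c, hcmem⟩
    rw [← hc]
    exact this
  have h1 : qCoeff g' n = σ (qCoeff g n) := hg' n
  rw [← h1, heq]

/-- **all coefficients lie in the field of coefficients** -/
theorem dsq_coeff_mem_field (hQ : DsqConj N 1) (hg₁ : qCoeff g 1 = 1) (hT : DsqHecke ε g)
    (hsupp : ∀ n : ℕ, ¬ n.Coprime N → qCoeff g n = 0) (B : ℕ)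
    (hB : Function.Injective (dshCoeffMap N 1 B)) (n : ℕ) :
    ∃ c : dsqField ε g B, (((c : DsqQb)) : ℂ) = qCoeff g n :=
  dsq_mem_of_fixed (dsqField ε g B) (qCoeff g n) fun σ hσ =>
    dsq_coeff_fixed hQ hg₁ hT hsupp B hB σ hσ n

theorem dsq_char_mem_field (B : ℕ) (u : ZMod N) :
    ∃ c : dsqField ε g B, (((c : DsqQb)) : ℂ) = ε u := by
  obtain ⟨c, hc⟩ := dsq_mem_qb_of_isIntegral (dsq_isIntegral_char ε u)
  exact ⟨⟨c, IntermediateField.subset_adjoin ℚ _ (Or.inr ⟨u, hc⟩)⟩, hc⟩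

/-- **the Rankin bound for all conjugates** -/
theorem dsq_rankin_embedding (hQ : DsqConj N 1) (hg₁ : qCoeff g 1 = 1) (hT : DsqHecke ε g)
    (B : ℕ) (α : ℕ → dsqField ε g B)
    (hα : ∀ p : ℕ, p.Prime → p ∉ N.primeFactors → (((α p : DsqQb)) : ℂ) = qCoeff g p)
    (φ : dsqField ε g B →+* ℂ) : DsfRankin N.primeFactors (fun p => φ (α p)) := by
  obtain ⟨σ, hσ⟩ := dsq_exists_extension (dsqField ε g B) φ
  obtain ⟨C, hC⟩ := dsq_rankin_conj hQ hg₁ hT (σ : ℂ →+* ℂ)
  refine ⟨C, fun s hs1 hs2 P hP => ?_⟩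
  have h := hC s hs1 hs2 P hP
  have heq : ∑ p ∈ P, ‖φ (α p)‖ ^ 2 * (p : ℝ) ^ (-s)
      = ∑ p ∈ P, ‖(σ : ℂ →+* ℂ) (qCoeff g p)‖ ^ 2 * (p : ℝ) ^ (-s) := by
    refine Finset.sum_congr rfl fun p hp => ?_
    rw [← hα p (hP p hp).1 (hP p hp).2, ← hσ]
    rfl
  rw [heq]
  exact h

end field

end Fermat.Agent.DS
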