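/-
DS-Q (lead), file 7: **bounded denominators and integrality**.

* `dsq_exists_bdd` : if all coefficients of `g ∈ S₁(Γ₁(N))` are algebraic then they have a common
  denominator (`g φ ∈ S₂(Γ₁(N))` for the unit form `φ`, the coefficients of a weight-two form are
  fixed integral combinations of finitely many of them, and `1 / φ` has integral coefficients);
* `dsq_isIntegral_of_bdd` : a complex number `x` such that `D s_k`, `k ≥ 0`, are integers of a
  number field, where `s_0 = 1`, `s_1 = x`, `s_{k+2} = x s_{k+1} - e s_k` with `e` integral, is integral.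
-/
import Mathlib
import Fermat.Agent.Lib.DS.Rat.Field
import Fermat.Agent.Lib.DS.Rat.Mul

set_option autoImplicit false
set_option linter.style.haveILetI false
set_option linter.unusedSectionVars false

open CongruenceSubgroup ModularFormClass

namespace Fermat.Agent.DS

/-- an algebraic number has an integral multiple -/
theorem dsq_exists_integral_multiple (c : DsqQb) :
    ∃ d : ℕ, d ≠ 0 ∧ IsIntegral ℤ ((d : ℂ) * (c : ℂ)) := by
  have h1 : IsAlgebraic ℚ ((c : DsqQb) : ℂ) := mem_algebraicClosure_iff.mp c.2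
  have h2 : IsAlgebraic ℤ ((c : DsqQb) : ℂ) := (IsFractionRing.isAlgebraic_iff ℤ ℚ ℂ).mpr h1
  obtain ⟨y, hy0, hy⟩ := h2.exists_integral_multiple
  refine ⟨y.natAbs, Int.natAbs_ne_zero.mpr hy0, ?_⟩
  have h3 : IsIntegral ℤ (((y.natAbs : ℤ) : ℂ) * (c : ℂ)) := by
    rcases Int.natAbs_eq y with h | h
    · rw [← h]
      simpa [zsmul_eq_mul] using hy
    · have : ((y.natAbs : ℤ) : ℂ) * (c : ℂ) = -(y • (c : ℂ)) := by
        rw [zsmul_eq_mul, ← neg_mul]
        congr 1
        have : (y.natAbs : ℤ) = -y := by omega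
        rw [this]
        push_cast
        ring
      rw [this]
      exact hy.neg
  simpa using h3

section bdd

variable {N : ℕ} [NeZero N] {g : CuspForm (Gamma1 N) 1}

/-- **bounded denominators** -/
theorem dsq_exists_bdd (hS : DsqSpan N) (hφ : DsqUnitForm N)
    (halg : ∀ n : ℕ, ∃ c : DsqQb, (c : ℂ) = qCoeff g n) :
    ∃ D : ℕ, D ≠ 0 ∧ ∀ n : ℕ, IsIntegral ℤ ((D : ℂ) * qCoeff g n) := by
  classical
  have hint : ∀ z : ℤ, IsIntegral ℤ ((z : ℤ) : ℂ) := fun z => by
    simpa using isIntegral_algebraMap (R := ℤ) (A := ℂ) (x := z)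
  have hnat : ∀ m : ℕ, IsIntegral ℤ ((m : ℕ) : ℂ) := fun m => by
    simpa using hint (m : ℤ)
  obtain ⟨φ, hφ0, hφz⟩ := hφ
  obtain ⟨I, c, hspan⟩ := hS
  set G : CuspForm (Gamma1 N) 2 := dsqMul₂ g φ with hG
  have hGn : ∀ n : ℕ, qCoeff G n
      = ∑ ij ∈ Finset.HasAntidiagonal.antidiagonal n, qCoeff g ij.1 * qCoeff φ ij.2 :=
    fun n => qCoeff_dsqMul₂ g φ n
  -- the coefficients of `G` are algebraic
  have hGalg : ∀ n : ℕ, ∃ c : DsqQb, (c : ℂ) = qCoeff G n := by
    intro n
    rw [← mem_dsqQbSubring, hGn]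
    refine Subring.sum_mem _ fun ij _ => Subring.mul_mem _ ?_ ?_
    · rw [mem_dsqQbSubring]; exact halg ij.1
    · obtain ⟨z, hz⟩ := hφz ij.2
      rw [hz]
      exact intCast_mem _ z
  -- a common denominator of the finitely many coefficients `b_i`, `i ∈ I`
  choose cG hcG using hGalg
  choose d hd0 hd using fun i => dsq_exists_integral_multiple (cG i)
  set D : ℕ := ∏ i ∈ I, d i with hD
  have hD0 : D ≠ 0 := Finset.prod_ne_zero_iff.mpr fun i _ => hd0 i
  have hDI : ∀ i ∈ I, IsIntegral ℤ ((D : ℂ) * qCoeff G i) := by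
    intro i hi
    have h1 : (D : ℂ) = ((∏ j ∈ I.erase i, d j : ℕ) : ℂ) * (d i : ℂ) := by
      rw [hD, ← Finset.prod_erase_mul I d hi]
      push_cast
      rfl
    rw [h1, mul_assoc, ← hcG i]
    exact (hnat _).mul (hd i)
  have hDG : ∀ n : ℕ, IsIntegral ℤ ((D : ℂ) * qCoeff G n) := by
    intro n
    rw [hspan G n, Finset.mul_sum]
    refine IsIntegral.sum _ fun i hi => ?_
    have : (D : ℂ) * ((c n i : ℂ) * qCoeff G i) = (c n i : ℂ) * ((D : ℂ) * qCoeff G i) := by ring
    rw [this]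
    exact (hint (c n i)).mul (hDI i hi)
  -- division by `φ`
  refine ⟨D, hD0, fun n => ?_⟩
  induction n using Nat.strong_induction_on with
  | _ n ih =>
    have h1 : qCoeff G n = qCoeff g n
        + ∑ ij ∈ (Finset.HasAntidiagonal.antidiagonal n).erase (n, 0),
            qCoeff g ij.1 * qCoeff φ ij.2 := by
      have hmem : (n, 0) ∈ Finset.HasAntidiagonal.antidiagonal n :=
        Finset.HasAntidiagonal.mem_antidiagonal.mpr (add_zero n)
      rw [hGn n, ← Finset.add_sum_erase _ _ hmem, hφ0, mul_one]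
    have h2 : (D : ℂ) * qCoeff g n = (D : ℂ) * qCoeff G n
        - ∑ ij ∈ (Finset.HasAntidiagonal.antidiagonal n).erase (n, 0),
            ((D : ℂ) * qCoeff g ij.1) * qCoeff φ ij.2 := by
      rw [h1, mul_add, Finset.mul_sum]
      simp only [mul_assoc]
      ring
    rw [h2]
    refine (hDG n).sub (IsIntegral.sum _ fun ij hij => ?_)
    obtain ⟨hne, hmem⟩ := Finset.mem_erase.mp hij
    have hsum : ij.1 + ij.2 = n := Finset.HasAntidiagonal.mem_antidiagonal.mp hmem
    have hlt : ij.1 < n := by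
      rcases Nat.lt_or_ge ij.1 n with h | h
      · exact h
      · exfalso
        apply hne
        have h3 : ij.1 = n := by omega
        have h4 : ij.2 = 0 := by omega
        exact Prod.ext h3 h4
    obtain ⟨z, hz⟩ := hφz ij.2
    rw [hz]
    exact (ih ij.1 hlt).mul (hint z)

end bdd

end Fermat.Agent.DS

namespace Fermat.Agent.DS

open NumberField

/-- the embedding of a subfield of `DsqQb` into `ℂ` -/
noncomputable def dsqIota (K : IntermediateField ℚ DsqQb) : K →+* ℂ :=
  (algebraMap DsqQb ℂ).comp (algebraMap K DsqQb)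

theorem dsqIota_apply (K : IntermediateField ℚ DsqQb) (c : K) :
    dsqIota K c = (((c : DsqQb)) : ℂ) := rfl

theorem dsqIota_injective (K : IntermediateField ℚ DsqQb) : Function.Injective (dsqIota K) :=
  (dsqIota K).injective

/-- **integrality from bounded denominators**: if `D s_k` are algebraic integers of a number field
for all `k`, where `s_0 = 1`, `s_1 = x`, `s_{k+2} = x s_{k+1} - e s_k`, `e` integral, then `x` is
integral -/
theorem dsq_isIntegral_of_bdd (K : IntermediateField ℚ DsqQb) [FiniteDimensional ℚ K]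
    (x e : ℂ) (he : IsIntegral ℤ e) (heK : ∃ c : K, (((c : DsqQb)) : ℂ) = e)
    (s : ℕ → ℂ) (hs0 : s 0 = 1) (hs1 : s 1 = x)
    (hrec : ∀ k : ℕ, s (k + 2) = x * s (k + 1) - e * s k)
    (hsK : ∀ k : ℕ, ∃ c : K, (((c : DsqQb)) : ℂ) = s k) (D : ℕ) (hD : D ≠ 0)
    (hbdd : ∀ k : ℕ, IsIntegral ℤ ((D : ℂ) * s k)) : IsIntegral ℤ x := by
  classical
  haveI : NumberField K := NumberField.of_module_finite ℚ K
  have hDc : (D : ℂ) ≠ 0 := Nat.cast_ne_zero.mpr hD
  -- the lattice
  let ιL : K →ₗ[ℤ] ℂ := (dsqIota K).toIntAlgHom.toLinearMap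
  let L : 𝓞 K →ₗ[ℤ] ℂ :=
    (LinearMap.mulLeft ℤ ((D : ℂ)⁻¹)) ∘ₗ ιL ∘ₗ ((algebraMap (𝓞 K) K).toIntAlgHom.toLinearMap)
  have hL : ∀ w : 𝓞 K, L w = (D : ℂ)⁻¹ * dsqIota K (w : K) := fun w => rfl
  set N₀ : Submodule ℤ ℂ := Submodule.map L ⊤ with hN₀
  have hN₀fg : N₀.FG := Submodule.FG.map L Module.Finite.fg_top
  haveI : IsNoetherian ℤ N₀ := isNoetherian_of_fg_of_noetherian N₀ hN₀fg
  -- elements of `K` which are integral and bounded by `D` lie in `N₀`
  have hmemN₀ : ∀ (c : K), IsIntegral ℤ ((D : ℂ) * dsqIota K c) → dsqIota K c ∈ N₀ := by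
    intro c hc
    have h1 : (D : ℂ) * dsqIota K c = dsqIota K ((D : K) * c) := by
      rw [map_mul, map_natCast]
    rw [h1] at hc
    have h2 : IsIntegral ℤ ((D : K) * c) :=
      (isIntegral_algHom_iff (dsqIota K).toIntAlgHom (dsqIota_injective K)).mp hc
    refine ⟨⟨(D : K) * c, h2⟩, Submodule.mem_top, ?_⟩
    rw [hL]
    show (D : ℂ)⁻¹ * dsqIota K ((D : K) * c) = dsqIota K c
    rw [map_mul, map_natCast, ← mul_assoc, inv_mul_cancel₀ hDc, one_mul]
  -- the module `N`
  set N : Submodule ℤ ℂ := Submodule.span ℤ {y : ℂ | ∃ j k : ℕ, y = e ^ j * s k} with hN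
  have hNle : N ≤ N₀ := by
    rw [hN, Submodule.span_le]
    rintro y ⟨j, k, rfl⟩
    obtain ⟨ce, hce⟩ := heK
    obtain ⟨cs, hcs⟩ := hsK k
    have h1 : e ^ j * s k = dsqIota K (ce ^ j * cs) := by
      rw [map_mul, map_pow, dsqIota_apply, dsqIota_apply, hce, hcs]
    rw [h1]
    apply hmemN₀
    rw [← h1]
    have h2 : (D : ℂ) * (e ^ j * s k) = e ^ j * ((D : ℂ) * s k) := by ring
    rw [h2]
    exact (he.pow j).mul (hbdd k)
  have hNfg : N.FG := isNoetherian_submodule.mp inferInstance N hNle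
  have hNbot : N ≠ ⊥ := by
    intro h
    have h1 : (1 : ℂ) ∈ N := Submodule.subset_span ⟨0, 0, by rw [pow_zero, hs0, mul_one]⟩
    rw [h, Submodule.mem_bot] at h1
    exact one_ne_zero h1
  refine isIntegral_of_smul_mem_submodule (R := ℤ) (A := ℂ) (M := ℂ) N hNbot hNfg x ?_
  intro n hn
  rw [smul_eq_mul]
  induction hn using Submodule.span_induction with
  | mem y hy =>
    obtain ⟨j, k, rfl⟩ := hy
    rcases k with _ | k
    · rw [hs0, mul_one]
      exact Submodule.subset_span ⟨j, 1, by rw [hs1]; ring⟩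
    · have h1 : x * (e ^ j * s (k + 1)) = e ^ j * s (k + 2) + e ^ (j + 1) * s k := by
        rw [hrec k]; ring
      rw [h1]
      exact N.add_mem (Submodule.subset_span ⟨j, k + 2, rfl⟩)
        (Submodule.subset_span ⟨j + 1, k, rfl⟩)
  | zero => rw [mul_zero]; exact N.zero_mem
  | add y z _ _ hy hz => rw [mul_add]; exact N.add_mem hy hz
  | smul a y _ hy =>
    rw [mul_smul_comm]
    exact N.smul_mem a hy

end Fermat.Agent.DS
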