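/-
DS-Q (lead), file 8: **the rationality package, assembled**.

Input: `f ∈ S₁(Γ₁(M))` with `a_1 = 1` satisfying the Hecke relations of S48 with the character `ε`;
black boxes `DsqConj M' 1`, `DsqSpan M'` for the levels `M'` with `M ∣ M'` and the same prime
divisors, and `DsqUnitForm M`.

Output (`dsq_main`): a level `M'` (`M ∣ M'`, same prime divisors) and the depletion
`f₀ ∈ S₁(Γ₁(M'))` of `f` (`a_n(f₀) = a_n(f)` for `n` prime to `M`, `0` otherwise), which again has
`a_1 = 1` and satisfies the Hecke relations; all its coefficients are algebraic INTEGERS lying in a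
subfield `K` of `DsqQb` finite over `ℚ`, which also contains the values of `ε`; for every embedding
`φ : K → ℂ` the Rankin bound holds for `p ↦ φ (a_p)`.
`dsq_dsfData_fst` : the first half of `DsfData M.primeFactors a e`.
-/
import Mathlib
import Fermat.Agent.Lib.DS.Rat.Bdd
import Fermat.Agent.Lib.DS.Final.Main

set_option autoImplicit false
set_option linter.style.haveILetI false
set_option linter.unusedSectionVars false

open CongruenceSubgroup ModularFormClass

namespace Fermat.Agent.DS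

/-- the value of a lifted character at a prime not dividing the higher level -/
theorem dsq_changeLevel_natCast {M M' : ℕ} [NeZero M] [NeZero M'] (hMM' : M ∣ M')
    (ε : DirichletCharacter ℂ M) {p : ℕ} (hp : p.Prime) (hpM' : ¬ p ∣ M') :
    (DirichletCharacter.changeLevel hMM' ε) ((p : ℕ) : ZMod M') = ε ((p : ℕ) : ZMod M) := by
  have hc : p.Coprime M' := (Nat.Prime.coprime_iff_not_dvd hp).mpr hpM'
  have h := DirichletCharacter.changeLevel_eq_cast_of_dvd ε hMM' (ZMod.unitOfCoprime p hc)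
  rw [ZMod.coe_unitOfCoprime, ZMod.cast_natCast hMM'] at h
  exact h

/-- coprimality to `M'` and to `M` agree when the prime divisors agree -/
theorem dsq_coprime_iff {M M' : ℕ} [NeZero M] [NeZero M']
    (hpf : M'.primeFactors = M.primeFactors) {n : ℕ} (hn : n ≠ 0) :
    n.Coprime M' ↔ n.Coprime M := by
  rw [← Nat.disjoint_primeFactors hn (NeZero.ne M'), ← Nat.disjoint_primeFactors hn (NeZero.ne M),
    hpf]

/-- the algebraic integers, as a subring of `ℂ` -/
noncomputable def dsqZbSubring : Subring ℂ := (integralClosure ℤ ℂ).toSubring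

theorem mem_dsqZbSubring {x : ℂ} : x ∈ dsqZbSubring ↔ IsIntegral ℤ x := Iff.rfl

/-- **the rationality package** -/
theorem dsq_main {M : ℕ} [NeZero M] (ε : DirichletCharacter ℂ M) (f : CuspForm (Gamma1 M) 1)
    (hf₁ : qCoeff f 1 = 1) (hT : DsqHecke ε f)
    (hQ : ∀ (M' : ℕ) [NeZero M'], M ∣ M' → M'.primeFactors = M.primeFactors → DsqConj M' 1)
    (hS : ∀ (M' : ℕ) [NeZero M'], M ∣ M' → M'.primeFactors = M.primeFactors → DsqSpan M')
    (hφ : DsqUnitForm M) :
    ∃ (M' : ℕ) (_ : NeZero M') (hMM' : M ∣ M'), M'.primeFactors = M.primeFactors ∧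
      ∃ f₀ : CuspForm (Gamma1 M') 1, qCoeff f₀ 1 = 1 ∧
        DsqHecke (DirichletCharacter.changeLevel hMM' ε) f₀ ∧
        (∀ n : ℕ, qCoeff f₀ n = if n.Coprime M then qCoeff f n else 0) ∧
        (∀ n : ℕ, IsIntegral ℤ (qCoeff f₀ n)) ∧
        ∃ K : IntermediateField ℚ DsqQb, FiniteDimensional ℚ K ∧
          (∀ n : ℕ, ∃ c : K, (((c : DsqQb)) : ℂ) = qCoeff f₀ n) ∧
          (∀ u : ZMod M', ∃ c : K,
            (((c : DsqQb)) : ℂ) = (DirichletCharacter.changeLevel hMM' ε) u) ∧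
          ∀ α : ℕ → K,
            (∀ p : ℕ, p.Prime → p ∉ M.primeFactors → (((α p : DsqQb)) : ℂ) = qCoeff f p) →
            ∀ φ : K →+* ℂ, DsfRankin M.primeFactors (fun p => φ (α p)) := by
  classical
  obtain ⟨M', hM', hMM', hpf, f₀, hf₀⟩ := dsq_exists_deplete 1 f
  haveI := hM'
  refine ⟨M', hM', hMM', hpf, f₀, ?_⟩
  set ε' := DirichletCharacter.changeLevel hMM' ε with hε'
  have hf₀₁ : qCoeff f₀ 1 = 1 := by
    rw [hf₀, if_pos (Nat.coprime_one_left M), hf₁]
  have hdvd : ∀ p : ℕ, ¬ p ∣ M' → ¬ p ∣ M := fun p h h' => h (h'.trans hMM')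
  -- the Hecke relations for `f₀`
  have hT₀ : DsqHecke ε' f₀ := by
    intro p hp hpM' n
    have hpM : ¬ p ∣ M := hdvd p hpM'
    have hpc : p.Coprime M := (Nat.Prime.coprime_iff_not_dvd hp).mpr hpM
    rw [hε', dsq_changeLevel_natCast hMM' ε hp hpM', hf₀ (p * n), hf₀ p, hf₀ n, if_pos hpc]
    by_cases hn : n.Coprime M
    · rw [if_pos (Nat.Coprime.mul_left hpc hn), if_pos hn]
      by_cases hpn : p ∣ n
      · rw [if_pos hpn, hf₀ (n / p),
          if_pos (Nat.Coprime.coprime_dvd_left (Nat.div_dvd_of_dvd hpn) hn)]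
        have := hT p hp hpM n
        rw [if_pos hpn] at this
        exact this
      · rw [if_neg hpn]
        have := hT p hp hpM n
        rw [if_neg hpn] at this
        exact this
    · have h1 : ¬ (p * n).Coprime M := fun h => hn (Nat.Coprime.coprime_mul_left h)
      rw [if_neg h1, if_neg hn, mul_zero, zero_add]
      by_cases hpn : p ∣ n
      · rw [if_pos hpn, hf₀ (n / p), if_neg, mul_zero]
        intro h
        apply hn
        obtain ⟨m, rfl⟩ := hpn
        rw [Nat.mul_div_cancel_left m hp.pos] at h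
        exact Nat.Coprime.mul_left hpc h
      · rw [if_neg hpn, mul_zero]
  have hsupp : ∀ n : ℕ, ¬ n.Coprime M' → qCoeff f₀ n = 0 := by
    intro n hn
    by_cases hn0 : n = 0
    · rw [hn0]; exact dsq_qCoeff_zero f₀
    · rw [hf₀, if_neg]
      exact fun h => hn ((dsq_coprime_iff hpf hn0).mpr h)
  have hQ' : DsqConj M' 1 := hQ M' hMM' hpf
  have halg := dsq_coeff_mem_qb hQ' hf₀₁ hT₀ hsupp
  obtain ⟨D, hD0, hD⟩ := dsq_exists_bdd (hS M' hMM' hpf) (hφ.of_dvd hMM') halg
  obtain ⟨B, hB⟩ := dsh_exists_coeffMap_injective M' 1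
  set K := dsqField ε' f₀ B with hK
  have hKmem := dsq_coeff_mem_field hQ' hf₀₁ hT₀ hsupp B hB
  have hKchar : ∀ u : ZMod M', ∃ c : K, (((c : DsqQb)) : ℂ) = ε' u :=
    fun u => dsq_char_mem_field B u
  -- integrality of the `a_p`
  have hint_p : ∀ p : ℕ, p.Prime → ¬ p ∣ M' → IsIntegral ℤ (qCoeff f₀ p) := by
    intro p hp hpM'
    refine dsq_isIntegral_of_bdd K (qCoeff f₀ p) (ε' ((p : ℕ) : ZMod M'))
      (dsq_isIntegral_char ε' _) (hKchar _) (fun k => qCoeff f₀ (p ^ k)) ?_ ?_ ?_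
      (fun k => hKmem _) D hD0 (fun k => hD _)
    · show qCoeff f₀ (p ^ 0) = 1
      rw [pow_zero, hf₀₁]
    · show qCoeff f₀ (p ^ 1) = qCoeff f₀ p
      rw [pow_one]
    · intro k
      exact dsh_qCoeff_prime_pow ε' f₀ hT₀ hp hpM' k
  have hint : ∀ n : ℕ, IsIntegral ℤ (qCoeff f₀ n) := by
    intro n
    by_cases hn : n.Coprime M'
    · exact dsq_coeff_mem_of_coprime hf₀₁ hT₀ dsqZbSubring
        (fun p hp hpM' => ⟨hint_p p hp hpM', dsq_isIntegral_char ε' _⟩) n hn
    · rw [hsupp n hn]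
      exact isIntegral_zero
  refine ⟨hf₀₁, hT₀, hf₀, hint, K, inferInstance, hKmem, hKchar, fun α hα φ => ?_⟩
  have hα' : ∀ p : ℕ, p.Prime → p ∉ M'.primeFactors → (((α p : DsqQb)) : ℂ) = qCoeff f₀ p := by
    intro p hp hpM'
    rw [hpf] at hpM'
    rw [hα p hp hpM', hf₀, if_pos]
    exact (Nat.Prime.coprime_iff_not_dvd hp).mpr fun h =>
      hpM' (Nat.mem_primeFactors.mpr ⟨hp, h, NeZero.ne M⟩)
  have := dsq_rankin_embedding hQ' hf₀₁ hT₀ B α hα' φ
  rw [hpf] at this
  exact this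

/-- **the first half of `DsfData`** -/
theorem dsq_dsfData_fst {M : ℕ} [NeZero M] (ε : DirichletCharacter ℂ M)
    (f : CuspForm (Gamma1 M) 1) (hf₁ : qCoeff f 1 = 1) (hT : DsqHecke ε f)
    (hQ : ∀ (M' : ℕ) [NeZero M'], M ∣ M' → M'.primeFactors = M.primeFactors → DsqConj M' 1)
    (hS : ∀ (M' : ℕ) [NeZero M'], M ∣ M' → M'.primeFactors = M.primeFactors → DsqSpan M')
    (hφ : DsqUnitForm M) :
    ∃ (K : Type) (_ : Field K) (_ : NumberField K) (ι₀ : K →+* ℂ) (α : ℕ → K),
      (∀ p : ℕ, p.Prime → p ∉ M.primeFactors → IsIntegral ℤ (α p) ∧ ι₀ (α p) = qCoeff f p) ∧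
      ∀ φ : K →+* ℂ, DsfRankin M.primeFactors (fun p => φ (α p)) := by
  obtain ⟨M', hM', hMM', hpf, f₀, -, -, hf₀, hint, K, hKfin, hKmem, -, hRk⟩ :=
    dsq_main ε f hf₁ hT hQ hS hφ
  haveI := hKfin
  haveI : NumberField K := NumberField.of_module_finite ℚ K
  choose α hα using hKmem
  have hαp : ∀ p : ℕ, p.Prime → p ∉ M.primeFactors →
      (((α p : K) : DsqQb) : ℂ) = qCoeff f p := by
    intro p hp hpM
    rw [hα p, hf₀, if_pos]
    exact (Nat.Prime.coprime_iff_not_dvd hp).mpr fun h =>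
      hpM (Nat.mem_primeFactors.mpr ⟨hp, h, NeZero.ne M⟩)
  refine ⟨K, inferInstance, inferInstance, dsqIota K, α, fun p hp hpM => ⟨?_, hαp p hp hpM⟩,
    hRk α hαp⟩
  have h1 : IsIntegral ℤ (dsqIota K (α p)) := by
    rw [dsqIota_apply, hα p]
    exact hint p
  exact (isIntegral_algHom_iff (dsqIota K).toIntAlgHom (dsqIota_injective K)).mp h1

end Fermat.Agent.DS
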