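/-
DS-Q (helper1): **split primes**, the statement.  For a number field `K ⊆ ℂ` (an intermediate field
of `DsqQb / ℚ`, finite over `ℚ`) there are arbitrarily large primes `ℓ` such that the reduction
`dslRed ℓ z ∈ DslRes ℓ` of every algebraic integer `z ∈ K` lies in the prime field `𝔽_ℓ`
(the primes which split completely in the Galois closure of `K`).
-/
import Mathlib
import Fermat.Agent.Lib.DS.Rat.Ext
import Fermat.Agent.Lib.DS.Lift.Red

set_option autoImplicit false

namespace Fermat.Agent.DS

/-- **split primes**: the hypothesis `hsplit` of `dsv_residualInf`, for all number fields -/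
def DsqSplit : Prop :=
  ∀ K : IntermediateField ℚ DsqQb, FiniteDimensional ℚ K → ∀ B : ℕ,
    ∃ (ℓ : ℕ) (_ : Fact ℓ.Prime), B < ℓ ∧ ∀ z : integralClosure ℤ ℂ,
      (∃ c : K, ((c : DsqQb) : ℂ) = (z : ℂ)) → dslRed ℓ z ∈ (dslResMap ℓ).range

end Fermat.Agent.DS
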