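/-
DS-Q (helper1): **split primes**.  `dsq_split : DsqSplit`: for a number field `K ⊆ ℂ` there are
arbitrarily large primes `ℓ` such that the reduction `dslRed ℓ z` of every algebraic integer `z ∈ K`
lies in the prime field of `DslRes ℓ`.

Proof: the Frobenius density theorem (`exists_frobenius_generating`, with `σ = 1`) applied to the
normal closure `L` of `K` in `ℚ̄` gives a prime `ℓ`, a place `P ∣ ℓ` of `ℚ̄` and a Frobenius element
`φ` at `P` which is trivial on `L`.  For an algebraic integer `x ∈ L` all conjugates of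
`y = x^ℓ - x` lie in the maximal ideal of `P`, so the minimal polynomial of `y` is `≡ Xⁿ` modulo `ℓ`
(the lower coefficients are integers in the maximal ideal), and `r(y)ⁿ = 0` for EVERY ring
homomorphism `r` from the algebraic integers to a field of characteristic `ℓ`.
-/
import Mathlib
import Fermat.Agent.Lib.DS.Rat.SplitDefs
import Fermat.Agent.Lib.FrobDensity.Main

set_option autoImplicit false
set_option linter.style.haveILetI false
set_option linter.unusedSectionVars false

open Polynomial

namespace Fermat.Agent.DS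

open Fermat.Agent.Lib.Helper6 (intCast_not_mem_nonunits integralClosure_le_valuationSubring)

local notation "Qb" => AlgebraicClosure ℚ

/-! ### Valuation subrings -/

section Val

variable {F : Type*} [Field F] (V : ValuationSubring F)

theorem dsq_mul_mem_nonunits {a b : F} (ha : a ∈ V) (hb : b ∈ V.nonunits) : a * b ∈ V.nonunits := by
  rw [V.mem_nonunits_iff] at hb ⊢
  have ha' : V.valuation a ≤ 1 := (V.valuation_le_one_iff _).mpr ha
  rw [map_mul]
  calc V.valuation a * V.valuation b ≤ 1 * V.valuation b := by gcongr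
    _ < 1 := by rwa [one_mul]

theorem dsq_sub_mem_nonunits {a b : F} (ha : a ∈ V.nonunits) (hb : b ∈ V.nonunits) :
    a - b ∈ V.nonunits := by
  rw [V.mem_nonunits_iff] at ha hb ⊢
  exact V.valuation.map_sub_lt ha hb

theorem dsq_nonunits_le {a : F} (ha : a ∈ V.nonunits) : a ∈ V := by
  rw [V.mem_nonunits_iff] at ha
  exact (V.valuation_le_one_iff _).mp ha.le

/-- the lower coefficients of `∏ (X - β)`, `β` in the maximal ideal, lie in the maximal ideal -/
theorem dsq_coeff_prod_mem (s : Multiset F) (hs : ∀ β ∈ s, β ∈ V.nonunits) :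
    ∀ i : ℕ, ((s.map (fun a => X - C a)).prod.coeff i ∈ V) ∧
      (i < Multiset.card s → (s.map (fun a => X - C a)).prod.coeff i ∈ V.nonunits) := by
  induction s using Multiset.induction_on with
  | empty =>
    intro i
    refine ⟨?_, fun h => absurd h (by simp)⟩
    rw [Multiset.map_zero, Multiset.prod_zero, coeff_one]
    split_ifs
    · exact V.one_mem
    · exact V.zero_mem
  | cons β s ih =>
    have hβ : β ∈ V.nonunits := hs β (Multiset.mem_cons_self β s)
    have ih' := ih (fun γ hγ => hs γ (Multiset.mem_cons_of_mem hγ))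
    set g := (s.map (fun a => X - C a)).prod with hg
    have hprod : ((β ::ₘ s).map (fun a => X - C a)).prod = g * (X - C β) := by
      rw [Multiset.map_cons, Multiset.prod_cons, mul_comm]
    intro i
    rw [hprod, Multiset.card_cons]
    cases i with
    | zero =>
      have h0 : (g * (X - C β)).coeff 0 = -(g.coeff 0 * β) := by
        rw [mul_coeff_zero, coeff_sub, coeff_X_zero, coeff_C_zero]
        ring
      rw [h0]
      have h1 : g.coeff 0 * β ∈ V.nonunits := dsq_mul_mem_nonunits V (ih' 0).1 hβ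
      have h2 : -(g.coeff 0 * β) ∈ V.nonunits := by
        rw [V.mem_nonunits_iff] at h1 ⊢
        rwa [Valuation.map_neg]
      exact ⟨dsq_nonunits_le V h2, fun _ => h2⟩
    | succ i =>
      rw [coeff_mul_X_sub_C]
      have h1 : g.coeff (i + 1) * β ∈ V.nonunits := dsq_mul_mem_nonunits V (ih' (i + 1)).1 hβ
      refine ⟨V.sub_mem (ih' i).1 (dsq_nonunits_le V h1), fun hi => ?_⟩
      exact dsq_sub_mem_nonunits V ((ih' i).2 (by omega)) h1

end Val

/-- a Frobenius element at `A` raises elements of `A` to the `l`-th power modulo the maximal ideal -/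
theorem dsq_frob_sub_mem {L : Type*} [Field L] [Algebra ℚ L] (A : ValuationSubring L)
    {σ : L ≃ₐ[ℚ] L} {l : ℕ} (hσ : A.IsFrobeniusAt σ l) {t : L} (ht : t ∈ A) :
    σ t - t ^ l ∈ A.nonunits := by
  obtain ⟨hσD, hfrob⟩ := hσ
  set g : A.decompositionSubgroup ℚ := ⟨σ, hσD⟩ with hg
  have h1 := hfrob (IsLocalRing.residue ↥A ⟨t, ht⟩)
  rw [← IsLocalRing.ResidueField.residue_smul, ← map_pow, ← sub_eq_zero, ← map_sub,
    IsLocalRing.residue_eq_zero_iff] at h1
  rw [ValuationSubring.mem_nonunits_iff_exists_mem_maximalIdeal]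
  exact ⟨A.sub_mem (g • (⟨t, ht⟩ : ↥A)).2 (A.pow_mem ht l), h1⟩

/-! ### The minimal polynomial of an integer all of whose conjugates are small -/

theorem dsq_dvd_coeff_minpoly {l : ℕ} (hl : l.Prime) (P : ValuationSubring Qb)
    (hP : P.LiesOverPrime l) (y : Qb) (hy : IsIntegral ℤ y)
    (hconj : ∀ τ : Qb ≃ₐ[ℚ] Qb, τ y ∈ P.nonunits) :
    ∀ i : ℕ, i < (minpoly ℤ y).natDegree → (l : ℤ) ∣ (minpoly ℤ y).coeff i := by
  set f := minpoly ℤ y with hf
  have hmonic : f.Monic := minpoly.monic hy
  set g : Qb[X] := f.map (algebraMap ℤ Qb) with hgdef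
  have hgmonic : g.Monic := hmonic.map _
  have hgdeg : g.natDegree = f.natDegree := hmonic.natDegree_map _
  have hgmin : g = (minpoly ℚ y).map (algebraMap ℚ Qb) := by
    rw [minpoly.isIntegrallyClosed_eq_field_fractions' ℚ hy, Polynomial.map_map]
    rfl
  have hsplit : g.Splits := IsAlgClosed.splits g
  have hprod := hsplit.eq_prod_roots_of_monic hgmonic
  have hcard : Multiset.card g.roots = f.natDegree := by
    rw [← hgdeg]
    exact hsplit.natDegree_eq_card_roots.symm
  have hroots : ∀ β ∈ g.roots, β ∈ P.nonunits := by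
    intro β hβ
    have h0 : aeval β (minpoly ℚ y) = 0 := by
      have := (mem_roots hgmonic.ne_zero).mp hβ
      rw [IsRoot.def, hgmin, eval_map] at this
      exact this
    have hyQ : IsIntegral ℚ y := hy.tower_top
    have h1 : IsConjRoot ℚ y β := isConjRoot_of_aeval_eq_zero hyQ h0
    haveI : IsGalois ℚ Qb := Fermat.Agent.Lib.Helper6.isGalois_rat_algebraicClosure
    obtain ⟨τ, hτ⟩ := isConjRoot_iff_exists_algEquiv.mp h1.symm
    rw [← hτ]
    exact hconj τ
  intro i hi
  have h2 := (dsq_coeff_prod_mem P g.roots hroots i).2 (by rw [hcard]; exact hi)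
  rw [← hprod, hgdef, coeff_map] at h2
  by_contra hnd
  exact intCast_not_mem_nonunits P hl hP hnd (by simpa using h2)

/-- a root of a monic integer polynomial `≡ Xⁿ` modulo `l` is killed by every ring homomorphism to
a field of characteristic `l` -/
theorem dsq_eq_zero_of_root {R κ : Type*} [CommRing R] [Field κ] (l : ℕ) [CharP κ l]
    (r : R →+* κ) (f : ℤ[X]) (hf : f.Monic)
    (hdvd : ∀ i : ℕ, i < f.natDegree → (l : ℤ) ∣ f.coeff i) (w : R) (hw : aeval w f = 0) :
    r w = 0 := by
  have h1 : f.map (Int.castRingHom κ) = X ^ f.natDegree := by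
    ext i
    rw [coeff_map, coeff_X_pow]
    rcases lt_trichotomy i f.natDegree with h | h | h
    · rw [if_neg h.ne]
      obtain ⟨c, hc⟩ := hdvd i h
      rw [hc]
      simp [CharP.cast_eq_zero]
    · rw [if_pos h, h, hf.coeff_natDegree]
      simp
    · rw [if_neg h.ne', coeff_eq_zero_of_natDegree_lt h]
      simp
  have h2 : eval (r w) (f.map (Int.castRingHom κ)) = 0 := by
    rw [eval_map]
    have h3 : r (eval₂ (Int.castRingHom R) w f) = 0 := by
      have : eval₂ (Int.castRingHom R) w f = aeval w f := by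
        rw [aeval_def]
        rfl
      rw [this, hw, map_zero]
    rw [hom_eval₂] at h3
    have h4 : r.comp (Int.castRingHom R) = Int.castRingHom κ := RingHom.ext_int _ _
    rw [h4] at h3
    exact h3
  rw [h1, eval_pow, eval_X] at h2
  exact eq_zero_of_pow_eq_zero h2

/-! ### Split primes -/

/-- **split primes** -/
theorem dsq_split : DsqSplit := by
  intro K hK B
  haveI := hK
  haveI : Algebra.IsAlgebraic ℚ Qb := AlgebraicClosure.isAlgebraic ℚ
  haveI : IsAlgClosure ℚ Qb := ⟨inferInstance, inferInstance⟩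
  haveI : IsGalois ℚ Qb := Fermat.Agent.Lib.Helper6.isGalois_rat_algebraicClosure
  let e : Qb ≃ₐ[ℚ] DsqQb := IsAlgClosure.equiv ℚ Qb DsqQb
  let K' : IntermediateField ℚ Qb := K.map (e.symm : DsqQb →ₐ[ℚ] Qb)
  haveI : FiniteDimensional ℚ K' :=
    LinearEquiv.finiteDimensional (IntermediateField.equivMap K (e.symm : DsqQb →ₐ[ℚ] Qb)).toLinearEquiv
  let L : IntermediateField ℚ Qb := IntermediateField.normalClosure ℚ K' Qb
  haveI : FiniteDimensional ℚ L := normalClosure.is_finiteDimensional ℚ K' Qb
  haveI : Normal ℚ L := normalClosure.normal ℚ K' Qb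
  have hK'L : K' ≤ L := IntermediateField.le_normalClosure K'
  obtain ⟨l, hl, hlT, P, φ, hP, hφ, -, a, -, hφL⟩ :=
    Fermat.Agent.FrobDensity.exists_frobenius_generating L 1 (Finset.range (B + 1))
  haveI : Fact l.Prime := ⟨hl⟩
  have hBl : B < l := by
    by_contra h
    exact hlT (Finset.mem_range.mpr (by omega))
  refine ⟨l, ⟨hl⟩, hBl, ?_⟩
  rintro z ⟨c, hc⟩
  rw [dsl_mem_range_resMap_iff]
  -- the element of `ℚ̄` corresponding to `z`
  set x : Qb := e.symm (c : DsqQb) with hx
  have hxL : x ∈ L := hK'L ⟨(c : DsqQb), c.2, rfl⟩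
  have hcint : IsIntegral ℤ (c : DsqQb) := by
    have h1 : IsIntegral ℤ (algebraMap DsqQb ℂ (c : DsqQb)) := by
      show IsIntegral ℤ (((c : DsqQb)) : ℂ)
      rw [hc]
      exact z.2
    exact (isIntegral_algebraMap_iff (algebraMap DsqQb ℂ).injective).mp h1
  have hxint : IsIntegral ℤ x := map_isIntegral_int (e.symm : DsqQb →+* Qb) hcint
  have hφfix : ∀ t ∈ L, φ t = t := by
    intro t ht
    rw [hφL t ht, one_pow]
    rfl
  set y : Qb := x ^ l - x with hy
  have hyint : IsIntegral ℤ y := (hxint.pow l).sub hxint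
  have hconj : ∀ τ : Qb ≃ₐ[ℚ] Qb, τ y ∈ P.nonunits := by
    intro τ
    have h1 : τ x ∈ L := by
      have := AlgEquiv.restrictNormal_commutes τ L ⟨x, hxL⟩
      rw [show algebraMap (↥L) Qb ⟨x, hxL⟩ = x from rfl] at this
      rw [← this]
      exact SetLike.coe_mem _
    have h2 : τ x ∈ P :=
      integralClosure_le_valuationSubring Qb P (map_isIntegral_int (τ : Qb →+* Qb) hxint)
    have h3 := dsq_frob_sub_mem P hφ h2
    rw [hφfix _ h1] at h3
    have h4 : τ y = 0 - (τ x - τ x ^ l) := by
      rw [hy, map_sub, map_pow]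
      ring
    rw [h4]
    refine dsq_sub_mem_nonunits P ?_ h3
    rw [P.mem_nonunits_iff, map_zero]
    exact zero_lt_one
  have hdvd := dsq_dvd_coeff_minpoly hl P hP y hyint hconj
  -- transport to `ℂ`
  let ψ : Qb →+* ℂ := (algebraMap DsqQb ℂ).comp (e : Qb →+* DsqQb)
  have hψx : ψ x = (z : ℂ) := by
    show algebraMap DsqQb ℂ (e (e.symm (c : DsqQb))) = _
    rw [AlgEquiv.apply_symm_apply]
    exact hc
  set w : integralClosure ℤ ℂ := z ^ l - z with hw
  have hwψ : (w : ℂ) = ψ y := by
    rw [hy, map_sub, map_pow, hψx]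
    rfl
  have hroot : aeval w (minpoly ℤ y) = 0 := by
    have h1 : aeval (ψ y) (minpoly ℤ y) = 0 := by
      have := Polynomial.aeval_algHom_apply ψ.toIntAlgHom y (minpoly ℤ y)
      rw [minpoly.aeval, map_zero] at this
      exact this
    rw [← hwψ] at h1
    have h2 := Polynomial.aeval_algHom_apply (integralClosure ℤ ℂ).val w (minpoly ℤ y)
    rw [show (integralClosure ℤ ℂ).val w = (w : ℂ) from rfl, h1] at h2
    exact Subtype.ext h2.symm
  have h0 := dsq_eq_zero_of_root l (dslRed l) (minpoly ℤ y) (minpoly.monic hyint) hdvd w hroot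
  rw [hw, map_sub, map_pow, sub_eq_zero] at h0
  exact h0

end Fermat.Agent.DS
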